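/-
Item 67 (S18), piece (C): the crux, in the language of constant reductions (`ConstRed`, item 75b).
helper26.  Blueprint: NOTES/S18_analysis_helper26.md (ADDENDUM).  No sorry in this file.

`crux`: a pure statement about a valuation ring `O ⊂ F` with residue map `red : O → Fk` in which
every finite-dimensional `K`-subspace has an orthonormal basis.  Let `V₁, V₂, W₁, W₂` be
finite-dimensional `K`-subspaces of `F`, `u ∈ O` with `red u = 1`, `m` invertible in `Fk`, with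
(H1)–(H5).  Then `V₁ ⊓ V₂ ≠ ⊥`.
Application (S18): `V_i = L(D_i + E)`, `W_i = L(m D_i)`, `m E = div u`, `r_* E = 0`: then
`L(E) = V₁ ⊓ V₂ ≠ 0`, i.e. `E` is principal.
-/
import Mathlib
import Fermat.Agent.GoodRed.Defs
import Fermat.Agent.GoodRed.Lattice

set_option autoImplicit false

noncomputable section

namespace Fermat.Agent.S18lib

open Fermat.Agent.GoodRed

variable {K F k Fk : Type*} [Field K] [Field F] [Algebra K F] [Field k] [Field Fk] [Algebra k Fk]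
variable {A : ValuationSubring K} {π : A →+* k} (R : ConstRed A π Fk F)

/-- integral coordinates in an orthonormal basis -/
theorem cx_coords {n : ℕ} (b : Fin n → R.O) (hb : LinearIndependent k (fun i => R.red (b i)))
    (V : Submodule K F) (hV : Submodule.span K (Set.range fun i => ((b i : R.O) : F)) = V)
    (y : R.O) (hy : (y : F) ∈ V) :
    ∃ a : Fin n → A, (y : F) = ∑ i, ((a i : A) : K) • ((b i : R.O) : F) ∧
      R.red y = ∑ i, π (a i) • R.red (b i) := by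
  classical
  rw [← hV] at hy
  obtain ⟨g, hg⟩ := (Submodule.mem_span_range_iff_exists_fun K).mp hy
  have hmem : ∀ i ∈ (Finset.univ : Finset (Fin n)), g i ∈ A :=
    R.coeff_mem_of_sum_mem b hb Finset.univ g (by rw [hg]; exact y.2)
  refine ⟨fun i => ⟨g i, hmem i (Finset.mem_univ i)⟩, hg.symm, ?_⟩
  exact R.red_sum_smul b Finset.univ (fun i => ⟨g i, hmem i (Finset.mem_univ i)⟩) y hg.symm

/-- the reduction of an element of `V ∩ O` lies in the span of the reductions of an orthonormal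
basis -/
theorem cx_red_mem_span {n : ℕ} (b : Fin n → R.O)
    (hb : LinearIndependent k (fun i => R.red (b i)))
    (V : Submodule K F) (hV : Submodule.span K (Set.range fun i => ((b i : R.O) : F)) = V)
    (y : R.O) (hy : (y : F) ∈ V) :
    R.red y ∈ Submodule.span k (Set.range fun i => R.red (b i)) := by
  obtain ⟨a, -, ha⟩ := cx_coords R b hb V hV y hy
  rw [ha]
  exact Submodule.sum_mem _ fun i _ =>
    Submodule.smul_mem _ _ (Submodule.subset_span ⟨i, rfl⟩)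

theorem cx_finrank_eq {n : ℕ} (b : Fin n → R.O)
    (hb : LinearIndependent k (fun i => R.red (b i)))
    (V : Submodule K F) (hV : Submodule.span K (Set.range fun i => ((b i : R.O) : F)) = V) :
    Module.finrank K V = n := by
  have h := finrank_span_eq_card (R.linearIndependent_of_red b hb)
  rw [hV] at h
  simpa using h

/-- **Step 1** (dimension count): if `V₁ ⊓ V₂ = ⊥` and `1 ∈ red V₁ ∩ red V₂`, then some
`f ∈ (V₁ ⊔ V₂) ∩ O` has its reduction outside `red V₁ − red V₂`. -/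
theorem cx_exists_bad (V₁ V₂ : Submodule K F) [Module.Finite K V₁] [Module.Finite K V₂]
    (hinf : V₁ ⊓ V₂ = ⊥)
    (h1 : (∃ s : R.O, (s : F) ∈ V₁ ∧ R.red s = 1) ∧ ∃ s : R.O, (s : F) ∈ V₂ ∧ R.red s = 1) :
    ∃ f : R.O, (f : F) ∈ V₁ ⊔ V₂ ∧
      ¬ ∃ a₁ a₂ : R.O, (a₁ : F) ∈ V₁ ∧ (a₂ : F) ∈ V₂ ∧ R.red f = R.red a₁ - R.red a₂ := by
  classical
  obtain ⟨n₁, b₁, hb₁s, hb₁⟩ := R.exists_orthonormal V₁ inferInstance
  obtain ⟨n₂, b₂, hb₂s, hb₂⟩ := R.exists_orthonormal V₂ inferInstance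
  obtain ⟨n, b, hbs, hb⟩ := R.exists_orthonormal (V₁ ⊔ V₂) inferInstance
  by_contra hcon
  have hall : ∀ f : R.O, (f : F) ∈ V₁ ⊔ V₂ →
      ∃ a₁ a₂ : R.O, (a₁ : F) ∈ V₁ ∧ (a₂ : F) ∈ V₂ ∧ R.red f = R.red a₁ - R.red a₂ := by
    intro f hf
    by_contra h
    exact hcon ⟨f, hf, h⟩
  set S₁ : Submodule k Fk := Submodule.span k (Set.range fun i => R.red (b₁ i)) with hS₁
  set S₂ : Submodule k Fk := Submodule.span k (Set.range fun i => R.red (b₂ i)) with hS₂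
  -- dimensions upstairs
  have hn₁ : Module.finrank K V₁ = n₁ := cx_finrank_eq R b₁ hb₁ V₁ hb₁s
  have hn₂ : Module.finrank K V₂ = n₂ := cx_finrank_eq R b₂ hb₂ V₂ hb₂s
  have hn : Module.finrank K (V₁ ⊔ V₂ : Submodule K F) = n := cx_finrank_eq R b hb _ hbs
  have hsum : n = n₁ + n₂ := by
    have h := Submodule.finrank_sup_add_finrank_inf_eq V₁ V₂
    rw [hinf, finrank_bot, add_zero, hn, hn₁, hn₂] at h
    exact h
  -- dimensions downstairs
  have hS₁fin : Module.finrank k S₁ ≤ n₁ := by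
    have := finrank_range_le_card (R := k) (fun i => R.red (b₁ i))
    simpa [hS₁, Set.finrank] using this
  have hS₂fin : Module.finrank k S₂ ≤ n₂ := by
    have := finrank_range_le_card (R := k) (fun i => R.red (b₂ i))
    simpa [hS₂, Set.finrank] using this
  haveI : Module.Finite k S₁ := FiniteDimensional.span_of_finite k (Set.finite_range _)
  haveI : Module.Finite k S₂ := FiniteDimensional.span_of_finite k (Set.finite_range _)
  have hone : (1 : Fk) ∈ S₁ ⊓ S₂ := by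
    obtain ⟨⟨s₁, hs₁V, hs₁⟩, ⟨s₂, hs₂V, hs₂⟩⟩ := h1
    refine ⟨?_, ?_⟩
    · rw [← hs₁]; exact cx_red_mem_span R b₁ hb₁ V₁ hb₁s s₁ hs₁V
    · rw [← hs₂]; exact cx_red_mem_span R b₂ hb₂ V₂ hb₂s s₂ hs₂V
  have hinfpos : 1 ≤ Module.finrank k (S₁ ⊓ S₂ : Submodule k Fk) := by
    have : 0 < Module.finrank k (S₁ ⊓ S₂ : Submodule k Fk) := by
      rw [Module.finrank_pos_iff_exists_ne_zero]
      exact ⟨⟨1, hone⟩, fun h => one_ne_zero (congrArg Subtype.val h)⟩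
    omega
  have hsup : Module.finrank k (S₁ ⊔ S₂ : Submodule k Fk) + 1 ≤ n₁ + n₂ := by
    have h := Submodule.finrank_sup_add_finrank_inf_eq S₁ S₂
    omega
  -- the reductions of `b` lie in `S₁ ⊔ S₂`
  have hmem : ∀ i, R.red (b i) ∈ S₁ ⊔ S₂ := by
    intro i
    have hbi : ((b i : R.O) : F) ∈ V₁ ⊔ V₂ := by
      rw [← hbs]
      exact Submodule.subset_span ⟨i, rfl⟩
    obtain ⟨a₁, a₂, ha₁, ha₂, hred⟩ := hall (b i) hbi
    rw [hred]
    exact Submodule.sub_mem _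
      (Submodule.mem_sup_left (cx_red_mem_span R b₁ hb₁ V₁ hb₁s a₁ ha₁))
      (Submodule.mem_sup_right (cx_red_mem_span R b₂ hb₂ V₂ hb₂s a₂ ha₂))
  have hli : LinearIndependent k (fun i => (⟨R.red (b i), hmem i⟩ : (S₁ ⊔ S₂ : Submodule k Fk))) := by
    refine LinearIndependent.of_comp (S₁ ⊔ S₂ : Submodule k Fk).subtype ?_
    exact hb
  have hcard := hli.fintype_card_le_finrank
  rw [Fintype.card_fin] at hcard
  omega

/-- the element of `O` given by a constant of `A` -/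
def cxC (c : A) : R.O := ⟨algebraMap K F (c : K), R.algebraMap_mem c⟩

theorem cx_red_C (c : A) : R.red (cxC R c) = algebraMap k Fk (π c) := R.red_algebraMap c

theorem cx_coe_C (c : A) : ((cxC R c : R.O) : F) = algebraMap K F (c : K) := rfl

include R in
/-- a unit of `A` has an inverse in `A` -/
theorem cx_exists_inv (a : A) (ha : π a ≠ 0) : ∃ b : A, a * b = 1 := by
  have h1 : (a : K) ∉ A.nonunits := fun h => ha ((R.π_eq_zero_iff a).mpr h)
  rw [ValuationSubring.mem_nonunits_iff_or, not_or, not_not] at h1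
  refine ⟨⟨(a : K)⁻¹, h1.2⟩, Subtype.ext ?_⟩
  show (a : K) * (a : K)⁻¹ = 1
  exact mul_inv_cancel₀ h1.1

/-- **Step 2** (normalisation): from a bad `f` we get `s_i ∈ V_i ∩ O` with `red s_i = 1` and
`s₁ − s₂ = c·f`, `c ∈ m_A`, `c ≠ 0`. -/
theorem cx_normalise (V₁ V₂ : Submodule K F)
    (h2 : ∀ x₁ x₂ : R.O, (x₁ : F) ∈ V₁ → (x₂ : F) ∈ V₂ → R.red x₁ = R.red x₂ →
      R.red x₁ ∈ Set.range (algebraMap k Fk))
    (f : R.O) (hfV : (f : F) ∈ V₁ ⊔ V₂)
    (hfbad : ¬ ∃ a₁ a₂ : R.O, (a₁ : F) ∈ V₁ ∧ (a₂ : F) ∈ V₂ ∧ R.red f = R.red a₁ - R.red a₂) :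
    ∃ (c : A) (s₁ s₂ : R.O), (c : K) ≠ 0 ∧ π c = 0 ∧ (s₁ : F) ∈ V₁ ∧ (s₂ : F) ∈ V₂ ∧
      R.red s₁ = 1 ∧ R.red s₂ = 1 ∧ s₁ - s₂ = cxC R c * f := by
  obtain ⟨t₁, ht₁, t₂, ht₂, hsum⟩ := Submodule.mem_sup.mp hfV
  have ht₁O : t₁ ∉ R.O := by
    intro h
    have h2' : t₂ ∈ R.O := by
      have : t₂ = (f : F) - t₁ := by rw [← hsum]; ring
      rw [this]
      exact sub_mem f.2 h
    apply hfbad
    refine ⟨⟨t₁, h⟩, ⟨-t₂, neg_mem h2'⟩, ht₁, V₂.neg_mem ht₂, ?_⟩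
    have : f = (⟨t₁, h⟩ : R.O) - ⟨-t₂, neg_mem h2'⟩ := by
      apply Subtype.ext
      show (f : F) = t₁ - -t₂
      rw [← hsum]; ring
    rw [this, map_sub]
  have ht₁0 : t₁ ≠ 0 := fun h0 => ht₁O (h0 ▸ R.O.zero_mem)
  obtain ⟨φ, hφ0, hφmem, hφinv⟩ := R.exists_unit_smul t₁ ht₁0
  have hφinvA : φ⁻¹ ∉ A := by
    intro h
    apply ht₁O
    have : t₁ = algebraMap K F φ⁻¹ * (algebraMap K F φ * t₁) := by
      rw [← mul_assoc, ← map_mul, inv_mul_cancel₀ hφ0, map_one, one_mul]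
    rw [this]
    exact mul_mem (R.algebraMap_mem ⟨φ⁻¹, h⟩) hφmem
  have hφA : φ ∈ A := (A.mem_or_inv_mem φ).resolve_right hφinvA
  have hπφ : π ⟨φ, hφA⟩ = 0 :=
    (R.π_eq_zero_iff ⟨φ, hφA⟩).mpr (A.mem_nonunits_iff_or.mpr (Or.inr hφinvA))
  -- first version of `s₁, s₂`
  set s₁ : R.O := ⟨algebraMap K F φ * t₁, hφmem⟩ with hs₁
  have hs₁V : (s₁ : F) ∈ V₁ := by
    show algebraMap K F φ * t₁ ∈ V₁
    rw [← Algebra.smul_def]
    exact V₁.smul_mem φ ht₁
  set s₂ : R.O := s₁ - cxC R ⟨φ, hφA⟩ * f with hs₂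
  have hs₂V : (s₂ : F) ∈ V₂ := by
    have : (s₂ : F) = (-φ) • t₂ := by
      show algebraMap K F φ * t₁ - algebraMap K F φ * (f : F) = _
      rw [← hsum, Algebra.smul_def, map_neg]; ring
    rw [this]
    exact V₂.smul_mem _ ht₂
  have hreds : R.red s₂ = R.red s₁ := by
    rw [hs₂, map_sub, map_mul, cx_red_C, hπφ, map_zero, zero_mul, sub_zero]
  have hs₁ne : R.red s₁ ≠ 0 := by
    intro h0
    rw [R.red_eq_zero_iff, ValuationSubring.mem_nonunits_iff_or] at h0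
    rcases h0 with h0 | h0
    · exact (mul_ne_zero (by simpa using hφ0) ht₁0) h0
    · exact h0 hφinv
  obtain ⟨a, ha⟩ := h2 s₁ s₂ hs₁V hs₂V hreds.symm
  have ha0 : a ≠ 0 := by
    rintro rfl
    rw [map_zero] at ha
    exact hs₁ne ha.symm
  obtain ⟨α, rfl⟩ := R.π_surjective a
  obtain ⟨β, hβ⟩ := cx_exists_inv R α ha0
  have hπβ : π α * π β = 1 := by rw [← map_mul, hβ, map_one]
  have hred1 : R.red (cxC R β * s₁) = 1 := by
    rw [map_mul, cx_red_C, ← ha, ← map_mul, mul_comm, hπβ, map_one]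
  refine ⟨β * ⟨φ, hφA⟩, cxC R β * s₁, cxC R β * s₂, ?_, ?_, ?_, ?_, hred1, ?_, ?_⟩
  · have hβ0 : (β : K) ≠ 0 := by
      intro h0
      have : β = 0 := Subtype.ext h0
      rw [this, mul_zero] at hβ
      exact zero_ne_one hβ
    exact mul_ne_zero hβ0 hφ0
  · rw [map_mul, hπφ, mul_zero]
  · show algebraMap K F (β : K) * (s₁ : F) ∈ V₁
    rw [← Algebra.smul_def]
    exact V₁.smul_mem _ hs₁V
  · show algebraMap K F (β : K) * (s₂ : F) ∈ V₂
    rw [← Algebra.smul_def]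
    exact V₂.smul_mem _ hs₂V
  · rw [map_mul, hreds, ← map_mul]
    exact hred1
  · rw [hs₂]
    apply Subtype.ext
    show algebraMap K F (β : K) * (s₁ : F) -
        algebraMap K F (β : K) * ((s₁ : F) - algebraMap K F φ * (f : F)) =
      algebraMap K F ((β : K) * φ) * (f : F)
    rw [map_mul]; ring

/-- divisibility in the valuation ring `A` -/
theorem cx_dvd_of_val_le {c z : A} (hc : (c : K) ≠ 0)
    (h : A.valuation (z : K) ≤ A.valuation (c : K)) : ∃ z' : A, z = c * z' := by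
  have hmem : (z : K) / (c : K) ∈ A := by
    rw [← A.valuation_le_one_iff, map_div₀]
    exact div_le_one_of_le₀ h zero_le
  refine ⟨⟨(z : K) / (c : K), hmem⟩, Subtype.ext ?_⟩
  show (z : K) = (c : K) * ((z : K) / (c : K))
  field_simp

/-- a combination of elements of `O` with coefficients in `A` -/
def cxSum {n : ℕ} (a : Fin n → A) (w : Fin n → R.O) : R.O := ∑ j, cxC R (a j) * w j

theorem cx_coe_sum {n : ℕ} (a : Fin n → A) (w : Fin n → R.O) :
    ((cxSum R a w : R.O) : F) = ∑ j, ((a j : A) : K) • ((w j : R.O) : F) := by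
  rw [cxSum, AddSubmonoidClass.coe_finsetSum]
  refine Finset.sum_congr rfl fun j _ => ?_
  show algebraMap K F (a j : K) * ((w j : R.O) : F) = _
  rw [Algebra.smul_def]

theorem cx_red_sum {n : ℕ} (a : Fin n → A) (w : Fin n → R.O) :
    R.red (cxSum R a w) = ∑ j, π (a j) • R.red (w j) := by
  rw [cxSum, map_sum]
  refine Finset.sum_congr rfl fun j _ => ?_
  rw [map_mul, cx_red_C, Algebra.smul_def]

theorem cx_sum_mem {n : ℕ} (a : Fin n → A) (w : Fin n → R.O) (W : Submodule K F)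
    (hw : ∀ j, ((w j : R.O) : F) ∈ W) : ((cxSum R a w : R.O) : F) ∈ W := by
  rw [cx_coe_sum]
  exact Submodule.sum_mem _ fun j _ => Submodule.smul_mem _ _ (hw j)

/-- **Steps 3–4** (improvement): the reduction of `f` does lie in `red V₁ − red V₂`. -/
theorem cx_improve (V₁ V₂ W₁ W₂ : Submodule K F) [Module.Finite K W₁]
    (u : R.O) (hu : R.red u = 1) (m : ℕ)
    (h3 : (∀ s ∈ V₁, ((u : R.O) : F) * s ^ m ∈ W₁) ∧ (∀ s ∈ V₂, ((u : R.O) : F) * s ^ m ∈ W₂) ∧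
      (1 : F) ∈ W₁ ∧ (1 : F) ∈ W₂)
    (h4 : ∀ x₁ x₂ : R.O, (x₁ : F) ∈ W₁ → (x₂ : F) ∈ W₂ → R.red x₁ = R.red x₂ →
      R.red x₁ ∈ Set.range (algebraMap k Fk))
    (h5 : ∀ h₁ h₂ τ : R.O, (h₁ : F) ∈ W₁ → (h₂ : F) ∈ W₂ → (τ : F) ∈ V₁ ⊔ V₂ →
      R.red h₁ - R.red h₂ = (m : Fk) * R.red τ →
      ∃ a₁ a₂ : R.O, (a₁ : F) ∈ V₁ ∧ (a₂ : F) ∈ V₂ ∧ R.red τ = R.red a₁ - R.red a₂)
    (f : R.O) (hfV : (f : F) ∈ V₁ ⊔ V₂)
    (c : A) (s₁ s₂ : R.O) (hc0 : (c : K) ≠ 0) (hπc : π c = 0)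
    (hs₁V : (s₁ : F) ∈ V₁) (hs₂V : (s₂ : F) ∈ V₂)
    (hs₁ : R.red s₁ = 1) (hs₂ : R.red s₂ = 1) (hdiff : s₁ - s₂ = cxC R c * f) :
    ∃ a₁ a₂ : R.O, (a₁ : F) ∈ V₁ ∧ (a₂ : F) ∈ V₂ ∧ R.red f = R.red a₁ - R.red a₂ := by
  classical
  obtain ⟨h3a, h3b, h3c, h3d⟩ := h3
  set f₁ : R.O := u * s₁ ^ m with hf₁
  set f₂ : R.O := u * s₂ ^ m with hf₂
  have hf₁W : (f₁ : F) ∈ W₁ := h3a _ hs₁V
  have hf₂W : (f₂ : F) ∈ W₂ := h3b _ hs₂V
  set σ : R.O := ∑ j ∈ Finset.range m, s₁ ^ j * s₂ ^ (m - 1 - j) with hσdef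
  have hσ : R.red σ = (m : Fk) := by
    rw [hσdef, map_sum]
    simp only [map_mul, map_pow, hs₁, hs₂, one_pow, mul_one]
    simp
  have hgeom : f₁ - f₂ = cxC R c * (u * σ * f) := by
    have h := geom_sum₂_mul s₁ s₂ m
    rw [hdiff] at h
    rw [hf₁, hf₂, ← mul_sub, ← h, hσdef]
    ring
  -- orthonormal basis of `W₁`
  obtain ⟨nW, w, hws, hw⟩ := R.exists_orthonormal W₁ inferInstance
  have hwW : ∀ j, ((w j : R.O) : F) ∈ W₁ := fun j => by
    rw [← hws]; exact Submodule.subset_span ⟨j, rfl⟩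
  obtain ⟨o, ho, hored⟩ := cx_coords R w hw W₁ hws 1 (by simpa using h3c)
  rw [map_one] at hored
  obtain ⟨j₁, hj₁⟩ : ∃ j₁, π (o j₁) ≠ 0 := by
    by_contra hcon
    have hall : ∀ j, π (o j) = 0 := fun j => by
      by_contra h
      exact hcon ⟨j, h⟩
    rw [Finset.sum_eq_zero (fun j _ => by rw [hall j, zero_smul])] at hored
    exact one_ne_zero hored
  obtain ⟨y, hy, -⟩ := cx_coords R w hw W₁ hws f₁ hf₁W
  obtain ⟨oinv, hoinv⟩ := cx_exists_inv R (o j₁) hj₁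
  set γ : A := y j₁ * oinv with hγ
  set z : Fin nW → A := fun j => y j - γ * o j with hz
  have hz₁ : z j₁ = 0 := by
    show y j₁ - y j₁ * oinv * o j₁ = 0
    rw [mul_assoc, mul_comm oinv, hoinv, mul_one, sub_self]
  have hfz : ((f₁ : R.O) : F) - algebraMap K F (γ : K) =
      ∑ j, ((z j : A) : K) • ((w j : R.O) : F) := by
    have h1 : algebraMap K F (γ : K) = ∑ j, ((γ * o j : A) : K) • ((w j : R.O) : F) := by
      have : (1 : F) = ∑ j, ((o j : A) : K) • ((w j : R.O) : F) := by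
        rw [← ho]; rfl
      calc algebraMap K F (γ : K) = (γ : K) • (1 : F) := by rw [Algebra.smul_def, mul_one]
        _ = ∑ j, ((γ * o j : A) : K) • ((w j : R.O) : F) := by
          rw [this, Finset.smul_sum]
          refine Finset.sum_congr rfl fun j _ => ?_
          rw [smul_smul]
          rfl
    rw [hy, h1, ← Finset.sum_sub_distrib]
    refine Finset.sum_congr rfl fun j _ => ?_
    rw [← sub_smul]
    rfl
  have hγW₂ : algebraMap K F (γ : K) ∈ W₂ := by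
    rw [Algebra.algebraMap_eq_smul_one]
    exact W₂.smul_mem _ h3d
  -- KEY: every `z j` is divisible by `c`
  have hkey : ∀ j, A.valuation ((z j : A) : K) ≤ A.valuation (c : K) := by
    by_contra hcon
    rw [not_forall] at hcon
    obtain ⟨jb, hjb⟩ := hcon
    rw [not_le] at hjb
    obtain ⟨j₀, -, hmax⟩ := Finset.exists_max_image Finset.univ
      (fun j => A.valuation ((z j : A) : K)) ⟨jb, Finset.mem_univ _⟩
    have hj₀ : A.valuation (c : K) < A.valuation ((z j₀ : A) : K) :=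
      lt_of_lt_of_le hjb (hmax jb (Finset.mem_univ _))
    have hz₀ : ((z j₀ : A) : K) ≠ 0 := by
      intro h0
      rw [h0, map_zero] at hj₀
      exact not_lt_zero hj₀
    have hζ : ∀ j, ∃ ζ : A, z j = z j₀ * ζ := fun j =>
      cx_dvd_of_val_le hz₀ (hmax j (Finset.mem_univ _))
    choose ζ hζ' using hζ
    obtain ⟨κ, hκ⟩ : ∃ κ : A, c = z j₀ * κ := cx_dvd_of_val_le hz₀ hj₀.le
    have hπκ : π κ = 0 := by
      rw [R.π_eq_zero_iff, ValuationSubring.mem_nonunits_iff]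
      have h1 : (c : K) = (z j₀ : K) * (κ : K) := congrArg Subtype.val hκ
      have h2 : A.valuation (c : K) = A.valuation (z j₀ : K) * A.valuation (κ : K) := by
        rw [h1, map_mul]
      by_contra hge
      rw [not_lt] at hge
      have h3 : A.valuation (z j₀ : K) ≤ A.valuation (c : K) := by
        rw [h2]
        calc A.valuation (z j₀ : K) = A.valuation (z j₀ : K) * 1 := (mul_one _).symm
          _ ≤ A.valuation (z j₀ : K) * A.valuation (κ : K) := by gcongr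
      exact not_le.mpr hj₀ h3
    have hζ₀ : ζ j₀ = 1 := by
      have h1 := hζ' j₀
      have h2 : ((z j₀ : A) : K) * 1 = ((z j₀ : A) : K) * ((ζ j₀ : A) : K) := by
        rw [mul_one]
        exact congrArg Subtype.val h1
      exact Subtype.ext (mul_left_cancel₀ hz₀ h2).symm
    have hζ₁ : ζ j₁ = 0 := by
      have h1 := hζ' j₁
      rw [hz₁] at h1
      have h2 : ((z j₀ : A) : K) * ((ζ j₁ : A) : K) = 0 := (congrArg Subtype.val h1).symm
      rcases mul_eq_zero.mp h2 with h | h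
      · exact absurd h hz₀
      · exact Subtype.ext h
    set g₁ : R.O := cxSum R ζ w with hg₁
    have hg₁W : (g₁ : F) ∈ W₁ := cx_sum_mem R ζ w W₁ hwW
    have hg₁eq : algebraMap K F (z j₀ : K) * (g₁ : F) =
        ((f₁ : R.O) : F) - algebraMap K F (γ : K) := by
      rw [hfz, hg₁, cx_coe_sum, Finset.mul_sum]
      refine Finset.sum_congr rfl fun j _ => ?_
      rw [hζ' j, ← Algebra.smul_def, smul_smul]
      rfl
    set g₂ : R.O := g₁ - cxC R κ * (u * σ * f) with hg₂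
    have hg₂red : R.red g₂ = R.red g₁ := by
      rw [hg₂, map_sub, map_mul, cx_red_C, hπκ, map_zero, zero_mul, sub_zero]
    have hg₂eq : algebraMap K F (z j₀ : K) * (g₂ : F) =
        ((f₂ : R.O) : F) - algebraMap K F (γ : K) := by
      have h1 : ((g₂ : R.O) : F) = (g₁ : F) - algebraMap K F (κ : K) * ((u * σ * f : R.O) : F) :=
        rfl
      have h2 : ((f₁ : R.O) : F) - ((f₂ : R.O) : F) =
          algebraMap K F (c : K) * ((u * σ * f : R.O) : F) := by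
        have := congrArg Subtype.val hgeom
        exact this
      have h3 : algebraMap K F (c : K) = algebraMap K F (z j₀ : K) * algebraMap K F (κ : K) := by
        rw [← map_mul]
        exact congrArg (algebraMap K F) (congrArg Subtype.val hκ)
      rw [h1, mul_sub, hg₁eq, ← mul_assoc, ← h3, ← h2]
      ring
    have hg₂W : (g₂ : F) ∈ W₂ := by
      have h1 : (g₂ : F) = ((z j₀ : K))⁻¹ • (((f₂ : R.O) : F) - algebraMap K F (γ : K)) := by
        rw [← hg₂eq, Algebra.smul_def, ← mul_assoc, ← map_mul, inv_mul_cancel₀ hz₀, map_one,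
          one_mul]
      rw [h1]
      exact W₂.smul_mem _ (W₂.sub_mem hf₂W hγW₂)
    obtain ⟨a, ha⟩ := h4 g₁ g₂ hg₁W hg₂W hg₂red.symm
    have hcmp : ∑ j, π (ζ j) • R.red (w j) = ∑ j, (a * π (o j)) • R.red (w j) := by
      rw [← cx_red_sum, ← hg₁, ← ha, Algebra.algebraMap_eq_smul_one, hored, Finset.smul_sum]
      refine Finset.sum_congr rfl fun j _ => ?_
      rw [smul_smul]
    have hco := fun j => hw.eq_coords_of_eq hcmp j
    have ha0 : a = 0 := by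
      have h1 := hco j₁
      rw [hζ₁, map_zero] at h1
      rcases mul_eq_zero.mp h1.symm with h | h
      · exact h
      · exact absurd h hj₁
    have h0 := hco j₀
    rw [hζ₀, map_one, ha0, zero_mul] at h0
    exact one_ne_zero h0
  have hz' : ∀ j, ∃ z' : A, z j = c * z' := fun j => cx_dvd_of_val_le hc0 (hkey j)
  choose z' hz'' using hz'
  set h₁ : R.O := cxSum R z' w with hh₁
  have hh₁W : (h₁ : F) ∈ W₁ := cx_sum_mem R z' w W₁ hwW
  have hh₁eq : algebraMap K F (c : K) * (h₁ : F) =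
      ((f₁ : R.O) : F) - algebraMap K F (γ : K) := by
    rw [hfz, hh₁, cx_coe_sum, Finset.mul_sum]
    refine Finset.sum_congr rfl fun j _ => ?_
    rw [hz'' j, ← Algebra.smul_def, smul_smul]
    rfl
  set h₂ : R.O := h₁ - u * σ * f with hh₂
  have hh₂eq : algebraMap K F (c : K) * (h₂ : F) =
      ((f₂ : R.O) : F) - algebraMap K F (γ : K) := by
    have h1 : ((h₂ : R.O) : F) = (h₁ : F) - ((u * σ * f : R.O) : F) := rfl
    have h2 : ((f₁ : R.O) : F) - ((f₂ : R.O) : F) =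
        algebraMap K F (c : K) * ((u * σ * f : R.O) : F) := congrArg Subtype.val hgeom
    rw [h1, mul_sub, hh₁eq, ← h2]
    ring
  have hh₂W : (h₂ : F) ∈ W₂ := by
    have h1 : (h₂ : F) = ((c : K))⁻¹ • (((f₂ : R.O) : F) - algebraMap K F (γ : K)) := by
      rw [← hh₂eq, Algebra.smul_def, ← mul_assoc, ← map_mul, inv_mul_cancel₀ hc0, map_one,
        one_mul]
    rw [h1]
    exact W₂.smul_mem _ (W₂.sub_mem hf₂W hγW₂)
  have hred : R.red h₁ - R.red h₂ = (m : Fk) * R.red f := by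
    rw [hh₂, map_sub, map_mul, map_mul, hu, hσ, one_mul]
    ring
  exact h5 h₁ h₂ f hh₁W hh₂W hfV hred

/-- **the crux** (abstract valuation lemma).  See the header of this file. -/
theorem crux (V₁ V₂ W₁ W₂ : Submodule K F)
    [Module.Finite K V₁] [Module.Finite K V₂] [Module.Finite K W₁]
    (u : R.O) (hu : R.red u = 1) (m : ℕ) (hm : (m : Fk) ≠ 0)
    (h1 : (∃ s : R.O, (s : F) ∈ V₁ ∧ R.red s = 1) ∧ ∃ s : R.O, (s : F) ∈ V₂ ∧ R.red s = 1)
    (h2 : ∀ x₁ x₂ : R.O, (x₁ : F) ∈ V₁ → (x₂ : F) ∈ V₂ → R.red x₁ = R.red x₂ →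
      R.red x₁ ∈ Set.range (algebraMap k Fk))
    (h3 : (∀ s ∈ V₁, ((u : R.O) : F) * s ^ m ∈ W₁) ∧ (∀ s ∈ V₂, ((u : R.O) : F) * s ^ m ∈ W₂) ∧
      (1 : F) ∈ W₁ ∧ (1 : F) ∈ W₂)
    (h4 : ∀ x₁ x₂ : R.O, (x₁ : F) ∈ W₁ → (x₂ : F) ∈ W₂ → R.red x₁ = R.red x₂ →
      R.red x₁ ∈ Set.range (algebraMap k Fk))
    (h5 : ∀ h₁ h₂ τ : R.O, (h₁ : F) ∈ W₁ → (h₂ : F) ∈ W₂ → (τ : F) ∈ V₁ ⊔ V₂ →
      R.red h₁ - R.red h₂ = (m : Fk) * R.red τ →
      ∃ a₁ a₂ : R.O, (a₁ : F) ∈ V₁ ∧ (a₂ : F) ∈ V₂ ∧ R.red τ = R.red a₁ - R.red a₂) :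
    V₁ ⊓ V₂ ≠ ⊥ := by
  intro hinf
  obtain ⟨f, hfV, hfbad⟩ := cx_exists_bad R V₁ V₂ hinf h1
  obtain ⟨c, s₁, s₂, hc0, hπc, hs₁V, hs₂V, hs₁, hs₂, hdiff⟩ :=
    cx_normalise R V₁ V₂ h2 f hfV hfbad
  exact hfbad (cx_improve R V₁ V₂ W₁ W₂ u hu m h3 h4 h5 f hfV c s₁ s₂ hc0 hπc hs₁V hs₂V
    hs₁ hs₂ hdiff)

end Fermat.Agent.S18lib

end
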