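/-
Item 67 (S18), piece CRUX (application): the crux for function fields.  helper8.
Uses the abstract valuation lemma `Fermat.Agent.S18lib.crux` (helper26, `S18lib/CruxCR.lean`) and
the good-reduction library (`GoodRed`).  No sorry in this file.

`crux_isPrincipal`: let `R` be a constant reduction of `F/K` to `Fk/k` with place reduction `r`
and equal genus.  If `E` is a divisor of degree `0` on `F` such that `m E` is principal
(`m` invertible in `k`) and `r_* E` is principal, then `E` is principal.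

Proof: reduce to `m E = div u` with `red u = 1` and `r_* E = 0` (`cxa_normalised`); there apply
`crux` to `V_i = L(n P_i + E)`, `W_i = L(mn P_i)` for two places with `r P₁ ≠ r P₂` and
`n = 2g + 1`; a nonzero `s ∈ V₁ ⊓ V₂ = L(E)` gives `E = div s⁻¹`.
-/
import Mathlib
import Fermat.Agent.GoodRed.Unique
import Fermat.Agent.RRlib.Cor
import Fermat.Agent.S18lib.CruxCR

set_option autoImplicit false

noncomputable section

namespace Fermat.Agent.S18lib

open AlgebraicCurve Fermat.Agent.RRlib Fermat.Agent.GoodRed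

variable {K F k Fk : Type*} [Field K] [Field F] [Algebra K F] [Field k] [Field Fk] [Algebra k Fk]

section divOf

/-- constants have order `0` at every place -/
lemma cxa_ord_const (v : Place K F) (c : K) : v.ord (algebraMap K F c) = 0 := by
  rcases eq_or_ne c 0 with rfl | hc
  · simp [Place.ord_zero]
  have h1 : v.adicValuation (algebraMap K F c) ≤ 1 := v.adicValuation_algebraMap_le_one c
  have h2 : v.adicValuation (algebraMap K F c⁻¹) ≤ 1 := v.adicValuation_algebraMap_le_one c⁻¹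
  have hc' : algebraMap K F c ≠ 0 := by
    rw [Ne, map_eq_zero_iff _ (algebraMap K F).injective]
    exact hc
  have h3 : v.adicValuation (algebraMap K F c) = 1 := by
    apply le_antisymm h1
    rw [map_inv₀, map_inv₀] at h2
    have hne : v.adicValuation (algebraMap K F c) ≠ 0 := v.adicValuation_ne_zero hc'
    exact (inv_le_one₀ (zero_lt_iff.mpr hne)).mp h2
  simp [Place.ord, h3]

variable [RRBase K F]

lemma cxa_divOf_mul {x y : F} (hx : x ≠ 0) (hy : y ≠ 0) :
    divOf (K := K) (x * y) = divOf (K := K) x + divOf (K := K) y := by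
  ext v
  rw [Finsupp.add_apply, divOf_apply (mul_ne_zero hx hy), divOf_apply hx, divOf_apply hy,
    v.ord_mul hx hy]

lemma cxa_divOf_inv (x : F) : divOf (K := K) x⁻¹ = - divOf (K := K) x := by
  ext v
  rw [Finsupp.neg_apply, divOf_apply', divOf_apply', v.ord_inv]

lemma cxa_divOf_pow (x : F) (n : ℕ) : divOf (K := K) (x ^ n) = n • divOf (K := K) x := by
  ext v
  rw [Finsupp.smul_apply, divOf_apply', divOf_apply', ← zpow_natCast, v.ord_zpow]
  simp

lemma cxa_divOf_const (c : K) : divOf (K := K) (algebraMap K F c) = 0 := by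
  ext v
  rw [divOf_apply', cxa_ord_const, Finsupp.zero_apply]

lemma cxa_const_of_divOf_eq_zero {w : F} (h : divOf (K := K) w = 0) :
    w ∈ Set.range (algebraMap K F) := by
  apply RRBase.const_of_forall_ord_nonneg
  intro v
  rw [← divOf_apply' (K := K) w v, h, Finsupp.zero_apply]

/-- a nonzero function in `L(E)` with `deg E = 0` shows that `E` is principal -/
lemma cxa_eq_divOf_of_mem {E : Divisor K F} (hE : Divisor.degree E = 0) {s : F} (hs : s ≠ 0)
    (hmem : s ∈ riemannRochSpace (K := K) E) : E = divOf (K := K) s⁻¹ := by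
  have h1 : 0 ≤ E + divOf (K := K) s := (mem_riemannRochSpace_iff_divOf hs E).mp hmem
  have h2 : Divisor.degree (E + divOf (K := K) s) ≤ 0 := by
    rw [map_add, hE, degree_divOf, add_zero]
  have h3 := eq_zero_of_nonneg_of_degree_le h1 h2
  rw [cxa_divOf_inv]
  exact eq_neg_of_add_eq_zero_left h3

omit [RRBase K F] in
lemma cxa_one_mem {D : Divisor K F} (hD : 0 ≤ D) : (1 : F) ∈ riemannRochSpace (K := K) D :=
  riemannRochSpace_mono hD one_mem_riemannRochSpace_zero

omit [RRBase K F] in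
lemma cxa_mem_iff {D : Divisor K F} {f : F} :
    f ∈ riemannRochSpace (K := K) D ↔ ∀ v : Place K F, v.adicValuation f ≤ WithZero.exp (D v) :=
  Iff.rfl

omit [RRBase K F] in
lemma cxa_nsmul_single_self (n : ℕ) (Q : Place K F) :
    (n • Finsupp.single Q (1 : ℤ) : Divisor K F) Q = (n : ℤ) := by
  rw [Finsupp.smul_apply, Finsupp.single_eq_same]
  simp

omit [RRBase K F] in
lemma cxa_nsmul_single_ne (n : ℕ) {Q v : Place K F} (h : v ≠ Q) :
    (n • Finsupp.single Q (1 : ℤ) : Divisor K F) v = 0 := by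
  rw [Finsupp.smul_apply, Finsupp.single_eq_of_ne h]
  simp

/-- functions with poles only at `Q₁` and only at `Q₂ ≠ Q₁` are constant -/
lemma cxa_inter_const {Q₁ Q₂ : Place K F} (hQ : Q₁ ≠ Q₂) (a b : ℕ) {w : F}
    (h1 : w ∈ riemannRochSpace (K := K) (a • Finsupp.single Q₁ (1 : ℤ)))
    (h2 : w ∈ riemannRochSpace (K := K) (b • Finsupp.single Q₂ (1 : ℤ))) :
    w ∈ Set.range (algebraMap K F) := by
  apply RRBase.const_of_forall_ord_nonneg
  intro v
  rcases eq_or_ne w 0 with rfl | hw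
  · rw [Place.ord_zero]
  rw [mem_riemannRochSpace_iff] at h1 h2
  by_cases hv : v = Q₁
  · have h := (h2 v).resolve_left hw
    rw [cxa_nsmul_single_ne b (fun h' => hQ (hv.symm.trans h'))] at h
    simpa using h
  · have h := (h1 v).resolve_left hw
    rw [cxa_nsmul_single_ne a hv] at h
    simpa using h

omit [RRBase K F] in
/-- the separation step of (H5) -/
lemma cxa_separate {Q₁ Q₂ : Place K F} (hQ : Q₁ ≠ Q₂) (M n : ℕ) (c : K) {h₁ h₂ τ : F}
    (hh₁ : h₁ ∈ riemannRochSpace (K := K) (M • Finsupp.single Q₁ (1 : ℤ)))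
    (hh₂ : h₂ ∈ riemannRochSpace (K := K) (M • Finsupp.single Q₂ (1 : ℤ)))
    (hτ : τ ∈ riemannRochSpace (K := K)
      (n • Finsupp.single Q₁ (1 : ℤ) + n • Finsupp.single Q₂ (1 : ℤ)))
    (heq : h₁ - h₂ = algebraMap K F c * τ) :
    h₁ ∈ riemannRochSpace (K := K) (n • Finsupp.single Q₁ (1 : ℤ)) := by
  rw [cxa_mem_iff] at hh₁ hh₂ hτ ⊢
  intro v
  by_cases hv : v = Q₁
  · have e1 : h₁ = algebraMap K F c * τ + h₂ := by rw [← heq]; ring
    have hvQ₂ : v ≠ Q₂ := fun h' => hQ (hv.symm.trans h')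
    subst hv
    have hτv := hτ v
    rw [Finsupp.add_apply, cxa_nsmul_single_self, cxa_nsmul_single_ne n hvQ₂, add_zero] at hτv
    have hh₂v := hh₂ v
    rw [cxa_nsmul_single_ne M hvQ₂] at hh₂v
    rw [cxa_nsmul_single_self, e1]
    refine (Valuation.map_add _ _ _).trans (max_le ?_ ?_)
    · rw [map_mul]
      exact (mul_le_of_le_one_left' (v.adicValuation_algebraMap_le_one c)).trans hτv
    · refine hh₂v.trans ?_
      rw [WithZero.exp_le_exp]
      exact Int.natCast_nonneg n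
  · have h := hh₁ v
    rw [cxa_nsmul_single_ne M hv] at h
    rw [cxa_nsmul_single_ne n hv]
    exact h

end divOf

section places

variable {A : ValuationSubring K} {π : A →+* k} (R : ConstRed A π Fk F)

/-- a place reduction is not constant -/
theorem cxa_exists_places [RRHyp K F] [RRHyp k Fk] {r : Place K F → Place k Fk}
    (hr : R.IsPlaceRed r) : ∃ P₁ P₂ : Place K F, r P₁ ≠ r P₂ := by
  classical
  by_contra hcon
  push Not at hcon
  obtain ⟨P₀⟩ := RRBase.nonempty_place (K := K) (F := F)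
  obtain ⟨f, hf, -, -⟩ := exists_pole_only_at (K := k) (F := Fk) (r P₀)
  obtain ⟨y, rfl⟩ := R.red_surjective f
  have hy0 : R.red y ≠ 0 := by
    intro h
    apply hf
    rw [h]
    exact ⟨0, map_zero _⟩
  apply hf
  apply cxa_const_of_divOf_eq_zero (K := k)
  rw [← hr.mapDomain_divOf y hy0]
  ext Q
  rw [uq_mapDomain_apply, Finsupp.zero_apply]
  by_cases hQ : Q = r P₀
  · subst hQ
    have h1 : ∀ P ∈ (divOf (K := K) ((y : R.O) : F)).support,
        (if r P = r P₀ then divOf (K := K) ((y : R.O) : F) P else 0)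
          = divOf (K := K) ((y : R.O) : F) P := by
      intro P _
      rw [if_pos (hcon P P₀)]
    rw [Finset.sum_congr rfl h1]
    have h2 := degree_divOf (K := K) ((y : R.O) : F)
    rw [degree_eq_sum] at h2
    exact h2
  · apply Finset.sum_eq_zero
    intro P _
    rw [if_neg]
    intro h
    exact hQ (h.symm.trans (hcon P P₀))

end places

section normalised

variable [RRBase K F]

omit [RRBase K F] in
/-- `L(nP₁ + E) ⊓ L(nP₂ + E) ≤ L(E)` for `P₁ ≠ P₂` -/
lemma cxa_inf_le {P₁ P₂ : Place K F} (hP : P₁ ≠ P₂) (n : ℕ) (E : Divisor K F) {s : F}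
    (h1 : s ∈ riemannRochSpace (K := K) (n • Finsupp.single P₁ (1 : ℤ) + E))
    (h2 : s ∈ riemannRochSpace (K := K) (n • Finsupp.single P₂ (1 : ℤ) + E)) :
    s ∈ riemannRochSpace (K := K) E := by
  rw [cxa_mem_iff] at h1 h2 ⊢
  intro v
  by_cases hv : v = P₁
  · have h := h2 v
    rw [Finsupp.add_apply, cxa_nsmul_single_ne n (fun h' => hP (hv.symm.trans h')), zero_add] at h
    exact h
  · have h := h1 v
    rw [Finsupp.add_apply, cxa_nsmul_single_ne n hv, zero_add] at h
    exact h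

/-- (H3): `s ∈ L(nP + E)` and `m E = div u` give `u s^m ∈ L(mn P)` -/
lemma cxa_h3 {E : Divisor K F} {u : F} (hu : u ≠ 0) (m : ℕ) (hm : m ≠ 0)
    (hmE : m • E = divOf (K := K) u) (n : ℕ) (P : Place K F) {s : F}
    (hs : s ∈ riemannRochSpace (K := K) (n • Finsupp.single P (1 : ℤ) + E)) :
    u * s ^ m ∈ riemannRochSpace (K := K) ((m * n) • Finsupp.single P (1 : ℤ)) := by
  rcases eq_or_ne s 0 with rfl | hs0
  · rw [zero_pow hm, mul_zero]
    exact Submodule.zero_mem _
  rw [mem_riemannRochSpace_iff] at hs ⊢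
  intro v
  right
  have h1 := (hs v).resolve_left hs0
  have h2 : v.ord u = m * E v := by
    rw [← divOf_apply' (K := K) u v, ← hmE, Finsupp.smul_apply, nsmul_eq_mul]
  rw [v.ord_mul hu (pow_ne_zero m hs0), ← zpow_natCast, v.ord_zpow, h2]
  rw [Finsupp.add_apply] at h1
  rw [mul_smul, Finsupp.smul_apply, nsmul_eq_mul]
  have h3 : (0 : ℤ) ≤ (m : ℤ) * ((n • Finsupp.single P (1 : ℤ) : Divisor K F) v + E v + v.ord s) :=
    mul_nonneg (Int.natCast_nonneg m) (by linarith)
  linarith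

omit [RRBase K F] in
lemma cxa_nsmul_single_nonneg (n : ℕ) (P : Place K F) :
    (0 : Divisor K F) ≤ n • Finsupp.single P (1 : ℤ) := by
  classical
  intro v
  rw [Finsupp.zero_apply, Finsupp.smul_apply, nsmul_eq_mul]
  exact mul_nonneg (Int.natCast_nonneg n) (by rw [Finsupp.single_apply]; split_ifs <;> simp)

end normalised

section main

variable {A : ValuationSubring K} {π : A →+* k} (R : ConstRed A π Fk F)

/-- the normalised case: `m E = div u` with `red u = 1` and `r_* E = 0` -/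
theorem cxa_normalised [RRHyp K F] [RRHyp k Fk] {r : Place K F → Place k Fk}
    (hr : R.IsPlaceRed r) (hg : genusFF K F ≤ genusFF k Fk)
    (m : ℕ) (hm : (m : k) ≠ 0) (E : Divisor K F) (hE : Divisor.degree E = 0)
    (u : R.O) (hu : R.red u = 1) (hmE : m • E = divOf (K := K) ((u : R.O) : F))
    (hrE : Finsupp.mapDomain r E = 0) :
    ∃ s : F, s ≠ 0 ∧ E = divOf (K := K) s := by
  obtain ⟨P₁, P₂, hQ⟩ := cxa_exists_places R hr
  have hP : P₁ ≠ P₂ := fun h => hQ (congrArg r h)
  set n : ℕ := 2 * genusFF K F + 1 with hn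
  have hm0 : m ≠ 0 := by
    rintro rfl
    exact hm Nat.cast_zero
  have hm' : (m : Fk) ≠ 0 := by
    rw [← map_natCast (algebraMap k Fk) m]
    exact (map_ne_zero_iff _ (algebraMap k Fk).injective).mpr hm
  have hu0 : ((u : R.O) : F) ≠ 0 := by
    intro h
    have : u = 0 := Subtype.ext h
    rw [this, map_zero] at hu
    exact zero_ne_one hu
  -- the push-forwards
  have hrD : ∀ P : Place K F, Finsupp.mapDomain r (n • Finsupp.single P (1 : ℤ) + E)
      = n • Finsupp.single (r P) (1 : ℤ) := by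
    intro P
    rw [Finsupp.mapDomain_add, hrE, add_zero, uq_mapDomain_nsmul_single]
  have hdegD : ∀ P : Place K F,
      Divisor.degree (n • Finsupp.single P (1 : ℤ) + E) = (n : ℤ) := by
    intro P
    rw [map_add, hE, add_zero, map_nsmul, degree_single_one, nsmul_eq_mul, mul_one]
  have hWV : ∀ P : Place K F, R.W (n • Finsupp.single P (1 : ℤ) + E)
      = riemannRochSpace (K := k) (n • Finsupp.single (r P) (1 : ℤ)) := by
    intro P
    rw [hr.W_eq' hg, hrD]
    rw [hdegD, hn]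
    push_cast
    linarith
  have hWW : ∀ P : Place K F, R.W ((m * n) • Finsupp.single P (1 : ℤ))
      ≤ riemannRochSpace (K := k) ((m * n) • Finsupp.single (r P) (1 : ℤ)) := by
    intro P
    have := hr.W_le ((m * n) • Finsupp.single P (1 : ℤ))
    rwa [uq_mapDomain_nsmul_single] at this
  have hWsum : R.W (n • Finsupp.single P₁ (1 : ℤ) + n • Finsupp.single P₂ (1 : ℤ) + E)
      ≤ riemannRochSpace (K := k)
        (n • Finsupp.single (r P₁) (1 : ℤ) + n • Finsupp.single (r P₂) (1 : ℤ)) := by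
    have := hr.W_le (n • Finsupp.single P₁ (1 : ℤ) + n • Finsupp.single P₂ (1 : ℤ) + E)
    rwa [Finsupp.mapDomain_add, Finsupp.mapDomain_add, hrE, add_zero,
      uq_mapDomain_nsmul_single, uq_mapDomain_nsmul_single] at this
  have hsup : riemannRochSpace (K := K) (n • Finsupp.single P₁ (1 : ℤ) + E)
      ⊔ riemannRochSpace (K := K) (n • Finsupp.single P₂ (1 : ℤ) + E)
      ≤ riemannRochSpace (K := K)
        (n • Finsupp.single P₁ (1 : ℤ) + n • Finsupp.single P₂ (1 : ℤ) + E) := by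
    apply sup_le
    · apply riemannRochSpace_mono
      have := cxa_nsmul_single_nonneg n P₂
      intro v
      have hv := this v
      simp only [Finsupp.add_apply, Finsupp.zero_apply] at hv ⊢
      linarith
    · apply riemannRochSpace_mono
      have := cxa_nsmul_single_nonneg n P₁
      intro v
      have hv := this v
      simp only [Finsupp.add_apply, Finsupp.zero_apply] at hv ⊢
      linarith
  -- (H1)
  have h1 : ∀ P : Place K F, ∃ s : R.O,
      (s : F) ∈ riemannRochSpace (K := K) (n • Finsupp.single P (1 : ℤ) + E) ∧ R.red s = 1 := by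
    intro P
    have : (1 : Fk) ∈ R.W (n • Finsupp.single P (1 : ℤ) + E) := by
      rw [hWV]
      exact cxa_one_mem (cxa_nsmul_single_nonneg n (r P))
    exact (R.mem_W_iff _ _).mp this
  -- (H2)
  have h2 : ∀ x₁ x₂ : R.O,
      (x₁ : F) ∈ riemannRochSpace (K := K) (n • Finsupp.single P₁ (1 : ℤ) + E) →
      (x₂ : F) ∈ riemannRochSpace (K := K) (n • Finsupp.single P₂ (1 : ℤ) + E) →
      R.red x₁ = R.red x₂ → R.red x₁ ∈ Set.range (algebraMap k Fk) := by
    intro x₁ x₂ hx₁ hx₂ heq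
    have e1 : R.red x₁ ∈ riemannRochSpace (K := k) (n • Finsupp.single (r P₁) (1 : ℤ)) := by
      rw [← hWV]
      exact (R.mem_W_iff _ _).mpr ⟨x₁, hx₁, rfl⟩
    have e2 : R.red x₁ ∈ riemannRochSpace (K := k) (n • Finsupp.single (r P₂) (1 : ℤ)) := by
      rw [heq, ← hWV]
      exact (R.mem_W_iff _ _).mpr ⟨x₂, hx₂, rfl⟩
    exact cxa_inter_const hQ n n e1 e2
  -- (H4)
  have h4 : ∀ x₁ x₂ : R.O,
      (x₁ : F) ∈ riemannRochSpace (K := K) ((m * n) • Finsupp.single P₁ (1 : ℤ)) →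
      (x₂ : F) ∈ riemannRochSpace (K := K) ((m * n) • Finsupp.single P₂ (1 : ℤ)) →
      R.red x₁ = R.red x₂ → R.red x₁ ∈ Set.range (algebraMap k Fk) := by
    intro x₁ x₂ hx₁ hx₂ heq
    have e1 := hWW P₁ ((R.mem_W_iff _ _).mpr ⟨x₁, hx₁, rfl⟩)
    have e2 := hWW P₂ ((R.mem_W_iff _ _).mpr ⟨x₂, hx₂, rfl⟩)
    rw [← heq] at e2
    exact cxa_inter_const hQ (m * n) (m * n) e1 e2
  -- (H5)
  have h5 : ∀ h₁ h₂ τ : R.O,
      (h₁ : F) ∈ riemannRochSpace (K := K) ((m * n) • Finsupp.single P₁ (1 : ℤ)) →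
      (h₂ : F) ∈ riemannRochSpace (K := K) ((m * n) • Finsupp.single P₂ (1 : ℤ)) →
      (τ : F) ∈ riemannRochSpace (K := K) (n • Finsupp.single P₁ (1 : ℤ) + E)
        ⊔ riemannRochSpace (K := K) (n • Finsupp.single P₂ (1 : ℤ) + E) →
      R.red h₁ - R.red h₂ = (m : Fk) * R.red τ →
      ∃ a₁ a₂ : R.O,
        (a₁ : F) ∈ riemannRochSpace (K := K) (n • Finsupp.single P₁ (1 : ℤ) + E) ∧
        (a₂ : F) ∈ riemannRochSpace (K := K) (n • Finsupp.single P₂ (1 : ℤ) + E) ∧
        R.red τ = R.red a₁ - R.red a₂ := by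
    intro h₁ h₂ τ hh₁ hh₂ hτ heq
    have e1 := hWW P₁ ((R.mem_W_iff _ _).mpr ⟨h₁, hh₁, rfl⟩)
    have e2 := hWW P₂ ((R.mem_W_iff _ _).mpr ⟨h₂, hh₂, rfl⟩)
    have e3 := hWsum ((R.mem_W_iff _ _).mpr ⟨τ, hsup hτ, rfl⟩)
    have heq' : R.red h₁ - R.red h₂ = algebraMap k Fk (m : k) * R.red τ := by
      rw [map_natCast]
      exact heq
    have heq'' : R.red h₂ - R.red h₁ = algebraMap k Fk (-(m : k)) * R.red τ := by
      rw [map_neg, neg_mul, ← heq']
      ring
    have f1 := cxa_separate hQ (m * n) n (m : k) e1 e2 e3 heq'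
    have e3' : R.red τ ∈ riemannRochSpace (K := k)
        (n • Finsupp.single (r P₂) (1 : ℤ) + n • Finsupp.single (r P₁) (1 : ℤ)) := by
      rw [add_comm]
      exact e3
    have f2 := cxa_separate hQ.symm (m * n) n (-(m : k)) e2 e1 e3' heq''
    have g1 : (m : k)⁻¹ • R.red h₁ ∈ R.W (n • Finsupp.single P₁ (1 : ℤ) + E) := by
      rw [hWV]
      exact Submodule.smul_mem _ _ f1
    have g2 : (m : k)⁻¹ • R.red h₂ ∈ R.W (n • Finsupp.single P₂ (1 : ℤ) + E) := by
      rw [hWV]
      exact Submodule.smul_mem _ _ f2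
    obtain ⟨a₁, ha₁, ha₁'⟩ := (R.mem_W_iff _ _).mp g1
    obtain ⟨a₂, ha₂, ha₂'⟩ := (R.mem_W_iff _ _).mp g2
    refine ⟨a₁, a₂, ha₁, ha₂, ?_⟩
    rw [ha₁', ha₂', ← smul_sub, heq', Algebra.smul_def, ← mul_assoc, ← map_mul,
      inv_mul_cancel₀ hm, map_one, one_mul]
  have hfin₁ : Module.Finite K
      (riemannRochSpace (K := K) (n • Finsupp.single P₁ (1 : ℤ) + E)) :=
    finite_riemannRochSpace _
  have hfin₂ : Module.Finite K
      (riemannRochSpace (K := K) (n • Finsupp.single P₂ (1 : ℤ) + E)) :=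
    finite_riemannRochSpace _
  have hfin₃ : Module.Finite K
      (riemannRochSpace (K := K) ((m * n) • Finsupp.single P₁ (1 : ℤ))) :=
    finite_riemannRochSpace _
  have hne := crux R
    (riemannRochSpace (K := K) (n • Finsupp.single P₁ (1 : ℤ) + E))
    (riemannRochSpace (K := K) (n • Finsupp.single P₂ (1 : ℤ) + E))
    (riemannRochSpace (K := K) ((m * n) • Finsupp.single P₁ (1 : ℤ)))
    (riemannRochSpace (K := K) ((m * n) • Finsupp.single P₂ (1 : ℤ)))
    u hu m hm' ⟨h1 P₁, h1 P₂⟩ h2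
    ⟨fun s hs => cxa_h3 hu0 m hm0 hmE n P₁ hs, fun s hs => cxa_h3 hu0 m hm0 hmE n P₂ hs,
      cxa_one_mem (cxa_nsmul_single_nonneg (m * n) P₁),
      cxa_one_mem (cxa_nsmul_single_nonneg (m * n) P₂)⟩ h4 h5
  obtain ⟨s, hs, hs0⟩ := Submodule.exists_mem_ne_zero_of_ne_bot hne
  have hsE := cxa_inf_le hP n E hs.1 hs.2
  exact ⟨s⁻¹, inv_ne_zero hs0, cxa_eq_divOf_of_mem hE hs0 hsE⟩

lemma cxa_mapDomain_sub (r : Place K F → Place k Fk) (D D' : Divisor K F) :
    Finsupp.mapDomain r (D - D') = Finsupp.mapDomain r D - Finsupp.mapDomain r D' :=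
  map_sub (Finsupp.mapDomain.addMonoidHom r) D D'

/-- **the crux of S18**: a degree-`0` divisor `E` with `m E` principal (`m` invertible in the
residue field `k`) whose push-forward under the place reduction is principal, is principal. -/
theorem crux_isPrincipal [RRHyp K F] [RRHyp k Fk] {r : Place K F → Place k Fk}
    (hr : R.IsPlaceRed r) (hg : genusFF K F ≤ genusFF k Fk)
    (m : ℕ) (hm : (m : k) ≠ 0) (E : Divisor K F) (hE : Divisor.degree E = 0)
    (hmE : ∃ u : F, u ≠ 0 ∧ m • E = divOf (K := K) u)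
    (hrE : ∃ w : Fk, w ≠ 0 ∧ Finsupp.mapDomain r E = divOf (K := k) w) :
    ∃ s : F, s ≠ 0 ∧ E = divOf (K := K) s := by
  obtain ⟨u₀, hu₀, hmE⟩ := hmE
  obtain ⟨w, hw, hrE⟩ := hrE
  obtain ⟨y, rfl⟩ := R.red_surjective w
  have hy0 : ((y : R.O) : F) ≠ 0 := by
    intro h
    have : y = 0 := Subtype.ext h
    rw [this, map_zero] at hw
    exact hw rfl
  have hE'deg : Divisor.degree (E - divOf (K := K) ((y : R.O) : F)) = 0 := by
    rw [map_sub, hE, degree_divOf, sub_zero]
  have hrE' : Finsupp.mapDomain r (E - divOf (K := K) ((y : R.O) : F)) = 0 := by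
    rw [cxa_mapDomain_sub, hr.mapDomain_divOf y hw, hrE, sub_self]
  -- the function `u₁ = u₀ / y ^ m`
  have hu₁ : u₀ * (((y : R.O) : F) ^ m)⁻¹ ≠ 0 :=
    mul_ne_zero hu₀ (inv_ne_zero (pow_ne_zero m hy0))
  have hdiv₁ : divOf (K := K) (u₀ * (((y : R.O) : F) ^ m)⁻¹)
      = m • (E - divOf (K := K) ((y : R.O) : F)) := by
    rw [cxa_divOf_mul hu₀ (inv_ne_zero (pow_ne_zero m hy0)), cxa_divOf_inv, cxa_divOf_pow,
      ← hmE, smul_sub, sub_eq_add_neg]
  obtain ⟨c, hc, hcu, hcu'⟩ := R.exists_unit_smul _ hu₁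
  have hc' : algebraMap K F c ≠ 0 := by
    rw [Ne, map_eq_zero_iff _ (algebraMap K F).injective]
    exact hc
  have hu₂ : R.red ⟨_, hcu⟩ ≠ 0 := by
    intro h
    have hmul : (⟨_, hcu⟩ : R.O) * ⟨_, hcu'⟩ = 1 := by
      apply Subtype.ext
      exact mul_inv_cancel₀ (mul_ne_zero hc' hu₁)
    have := congrArg R.red hmul
    rw [map_mul, h, zero_mul, map_one] at this
    exact zero_ne_one this
  have hdiv₂ : divOf (K := K) (algebraMap K F c * (u₀ * (((y : R.O) : F) ^ m)⁻¹))
      = m • (E - divOf (K := K) ((y : R.O) : F)) := by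
    rw [cxa_divOf_mul hc' hu₁, cxa_divOf_const, zero_add, hdiv₁]
  have hred₂ : divOf (K := k) (R.red ⟨_, hcu⟩) = 0 := by
    rw [← hr.mapDomain_divOf ⟨_, hcu⟩ hu₂]
    show Finsupp.mapDomain r (divOf (K := K) (algebraMap K F c * (u₀ * (((y : R.O) : F) ^ m)⁻¹)))
      = 0
    rw [hdiv₂, Finsupp.mapDomain_smul, hrE', smul_zero]
  obtain ⟨cbar, hcbar⟩ := cxa_const_of_divOf_eq_zero (K := k) hred₂
  have hcbar0 : cbar ≠ 0 := by
    rintro rfl
    rw [map_zero] at hcbar
    exact hu₂ hcbar.symm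
  obtain ⟨a, ha⟩ := R.π_surjective cbar⁻¹
  have ha0 : (a : K) ≠ 0 := by
    intro h
    have : a = 0 := Subtype.ext h
    rw [this, map_zero] at ha
    exact inv_ne_zero hcbar0 ha.symm
  have ha' : algebraMap K F (a : K) ≠ 0 := by
    rw [Ne, map_eq_zero_iff _ (algebraMap K F).injective]
    exact ha0
  have hu : R.red (⟨algebraMap K F (a : K), R.algebraMap_mem a⟩ * ⟨_, hcu⟩) = 1 := by
    rw [R.red_algebraMap_mul, ha, ← hcbar, Algebra.smul_def, ← map_mul,
      inv_mul_cancel₀ hcbar0, map_one]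
  have hmE' : m • (E - divOf (K := K) ((y : R.O) : F))
      = divOf (K := K) (((⟨algebraMap K F (a : K), R.algebraMap_mem a⟩ * ⟨_, hcu⟩ : R.O) : R.O) : F)
      := by
    show _ = divOf (K := K)
      (algebraMap K F (a : K) * (algebraMap K F c * (u₀ * (((y : R.O) : F) ^ m)⁻¹)))
    rw [cxa_divOf_mul ha' (mul_ne_zero hc' hu₁), cxa_divOf_const, zero_add, hdiv₂]
  obtain ⟨s, hs, hEs⟩ := cxa_normalised R hr hg m hm _ hE'deg _ hu hmE' hrE'
  refine ⟨s * (y : F), mul_ne_zero hs hy0, ?_⟩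
  rw [cxa_divOf_mul hs hy0, ← hEs, sub_add_cancel]

end main

end Fermat.Agent.S18lib

end
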