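/-
Item 67 (S18), piece S18-X: the abstract theorem, in the exact blueprint signature
(NOTES/S18_signatures.lean.txt).  helper8.  No sorry in this file.
`principal_of_red_eq_one` = `cxa_normalised` (S18lib/Crux.lean) fed with Theorem C of 75b
(`ConstRed.exists_isPlaceRed`, GoodRed/Main.lean).
-/
import Mathlib
import Fermat.Agent.GoodRed.Main
import Fermat.Agent.S18lib.Crux

set_option autoImplicit false

noncomputable section

namespace Fermat.Agent.S18lib

open AlgebraicCurve Fermat.Agent.RRlib Fermat.Agent.GoodRed

variable {K F k Fk : Type*} [Field K] [Field F] [Algebra K F] [Field k] [Field Fk] [Algebra k Fk]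
variable {A : ValuationSubring K} {π : A →+* k}

/-- the form with a given place reduction `r` (no `[Infinite k]`) -/
theorem principal_of_red_eq_one_of_isPlaceRed (R : ConstRed A π Fk F) [RRHyp K F] [RRHyp k Fk]
    {r : Place K F → Place k Fk} (hr : R.IsPlaceRed r)
    (hg : genusFF K F ≤ genusFF k Fk) (m : ℕ) (hm : (m : k) ≠ 0) (u : R.O) (hu : R.red u = 1)
    (E : Divisor K F) (hE : m • E = divOf (K := K) ((u : R.O) : F)) :
    E ∈ Divisor.principal (K := K) (F := F) := by
  have hm0 : m ≠ 0 := by
    rintro rfl
    exact hm Nat.cast_zero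
  have hdeg : Divisor.degree E = 0 := by
    have h := congrArg Divisor.degree hE
    rw [map_nsmul, degree_divOf, nsmul_eq_mul] at h
    rcases mul_eq_zero.mp h with h | h
    · exact absurd (by exact_mod_cast h) hm0
    · exact h
  have hrE : Finsupp.mapDomain r E = 0 := by
    have h1 : m • Finsupp.mapDomain r E = 0 := by
      have hu1 : R.red u ≠ 0 := by
        rw [hu]
        exact one_ne_zero
      rw [← Finsupp.mapDomain_smul, hE, hr.mapDomain_divOf u hu1, hu, ← map_one (algebraMap k Fk),
        cxa_divOf_const]
    ext Q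
    have h2 := DFunLike.congr_fun h1 Q
    rw [Finsupp.smul_apply, Finsupp.zero_apply, nsmul_eq_mul] at h2
    rw [Finsupp.zero_apply]
    rcases mul_eq_zero.mp h2 with h | h
    · exact absurd (by exact_mod_cast h) hm0
    · exact h
  obtain ⟨s, hs, hEs⟩ := cxa_normalised R hr hg m hm E hdeg u hu hE hrE
  exact ⟨s, hs, fun v => by rw [hEs, divOf_apply hs]⟩

/-- **abstract S18**: under genus (in)equality, a divisor `E` with `m E = div u`, `u` a unit of
the constant reduction with `red u = 1`, `m` invertible in `k`, is principal. -/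
theorem principal_of_red_eq_one (R : ConstRed A π Fk F) [RRHyp K F] [RRHyp k Fk] [Infinite k]
    (hg : genusFF K F ≤ genusFF k Fk) (m : ℕ) (hm : (m : k) ≠ 0) (u : R.O) (hu : R.red u = 1)
    (E : Divisor K F) (hE : m • E = divOf (K := K) ((u : R.O) : F)) :
    E ∈ Divisor.principal (K := K) (F := F) := by
  obtain ⟨r, hr, -⟩ := R.exists_isPlaceRed hg
  exact principal_of_red_eq_one_of_isPlaceRed R hr hg m hm u hu E hE

end Fermat.Agent.S18lib

end
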