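/-
Item 67 (S18), piece S18-T, part 1 (helper2): the ALGEBRA of the transfer down.

`Λ₀ = R((t^e)) = range (qExpand R e)` inside `R((t))`.
* `tr_order_qExpand`, `tr_dvd_order` : orders of elements of `Λ₀` are multiples of `e`;
* `tr_sum_eq_zero` : `1, Y, …, Y^(e-1)` are linearly independent over `Λ₀` when `ord Y = -1`;
* `tr_root_mem` : an `m`-th root `x` of `w ∈ Λ₀` with `e m ∣ ord w` lies in `Λ₀` (over `ℂ`);
* `tr_mem_range_of_lt` : fields `A ⊂ B`, `[B : A] < 2 e`, `σ : B → R((t))` with `σ A ⊂ Λ₀` and an element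
  of order `-1`: every `g ∈ B` with `σ g ∈ Λ₀` lies in `A`.
No sorry.
-/
import Mathlib
import Fermat.Prelude.Def_ModularCurve_X0
import Fermat.Agent.AJlib.LaurentRoot

set_option autoImplicit false

noncomputable section

namespace Fermat.Agent.S18lib

open ModularCurve HahnSeries

section Laurent

variable {R : Type*} [Field R] (e : ℕ) [NeZero e]

lemma tr_qExpand_ne_zero {W : LaurentSeries R} (hW : W ≠ 0) : qExpand R e W ≠ 0 := by
  intro h
  apply hW
  apply qExpand_injective (R := R) e
  rw [h, map_zero]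

/-- a nonzero coefficient of an element of `R((t^e))` sits at a multiple of `e` -/
lemma tr_dvd_of_coeff_ne_zero (W : LaurentSeries R) {n : ℤ}
    (h : (qExpand R e W).coeff n ≠ 0) : (e : ℤ) ∣ n := by
  by_contra hn
  exact h (qExpand_coeff_of_not_dvd e W hn)

lemma tr_dvd_order (W : LaurentSeries R) : (e : ℤ) ∣ (qExpand R e W).order := by
  by_cases hW : W = 0
  · rw [hW, map_zero, HahnSeries.order_zero]
    exact dvd_zero _
  exact tr_dvd_of_coeff_ne_zero e W
    (HahnSeries.coeff_order_eq_zero.not.mpr (tr_qExpand_ne_zero e hW))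

lemma tr_order_qExpand (W : LaurentSeries R) : (qExpand R e W).order = (e : ℤ) * W.order := by
  by_cases hW : W = 0
  · rw [hW, map_zero, HahnSeries.order_zero, mul_zero]
  have hne : qExpand R e W ≠ 0 := tr_qExpand_ne_zero e hW
  apply le_antisymm
  · apply HahnSeries.order_le_of_coeff_ne_zero
    rw [qExpand_coeff_mul]
    exact HahnSeries.coeff_order_eq_zero.not.mpr hW
  · obtain ⟨k, hk⟩ := tr_dvd_order e W
    have h1 : (qExpand R e W).coeff ((e : ℤ) * k) ≠ 0 := by
      rw [← hk]
      exact HahnSeries.coeff_order_eq_zero.not.mpr hne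
    rw [qExpand_coeff_mul] at h1
    have h2 : W.order ≤ k := HahnSeries.order_le_of_coeff_ne_zero h1
    rw [hk]
    exact mul_le_mul_of_nonneg_left h2 (by positivity)

/-- `1, Y, …, Y^(e-1)` are linearly independent over `R((t^e))` when `ord Y = -1` -/
theorem tr_sum_eq_zero (x : Fin e → LaurentSeries R)
    (hx : ∀ i, x i ∈ (qExpand R e).range) (Y : LaurentSeries R) (hY : Y.order = -1)
    (h : ∑ i, x i * Y ^ (i : ℕ) = 0) : ∀ i, x i = 0 := by
  classical
  by_contra hcon
  push Not at hcon
  obtain ⟨i₁, hi₁⟩ := hcon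
  have hY0 : Y ≠ 0 := by
    intro h0
    rw [h0, HahnSeries.order_zero] at hY
    omega
  set o : Fin e → ℤ := fun i => (x i * Y ^ (i : ℕ)).order with ho_def
  have ho : ∀ i, x i ≠ 0 → o i = (x i).order - (i : ℕ) := by
    intro i hi
    show (x i * Y ^ (i : ℕ)).order = _
    rw [HahnSeries.order_mul hi (pow_ne_zero _ hY0), HahnSeries.order_pow, hY]
    simp only [nsmul_eq_mul, mul_neg, mul_one]
    ring
  have hd : ∀ i, (e : ℤ) ∣ (x i).order := by
    intro i
    obtain ⟨W, hW⟩ := hx i
    rw [← hW]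
    exact tr_dvd_order e W
  set S : Finset (Fin e) := Finset.univ.filter (fun i => x i ≠ 0) with hS_def
  have hS : S.Nonempty := ⟨i₁, Finset.mem_filter.2 ⟨Finset.mem_univ _, hi₁⟩⟩
  obtain ⟨i₀, hi₀S, hmin⟩ := Finset.exists_min_image S o hS
  have hi₀ : x i₀ ≠ 0 := (Finset.mem_filter.1 hi₀S).2
  have hcoeff := congrArg (fun z : LaurentSeries R => z.coeff (o i₀)) h
  simp only [HahnSeries.coeff_sum, HahnSeries.coeff_zero] at hcoeff
  rw [Finset.sum_eq_single i₀] at hcoeff
  · exact (HahnSeries.coeff_order_eq_zero.not.mpr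
      (mul_ne_zero hi₀ (pow_ne_zero _ hY0))) hcoeff
  · intro j _ hj
    by_cases hxj : x j = 0
    · rw [hxj, zero_mul, HahnSeries.coeff_zero]
    · apply HahnSeries.coeff_eq_zero_of_lt_order
      have h1 : o i₀ ≤ o j := hmin j (Finset.mem_filter.2 ⟨Finset.mem_univ _, hxj⟩)
      have h2 : o i₀ ≠ o j := by
        intro heq
        rw [ho i₀ hi₀, ho j hxj] at heq
        have h3 : (e : ℤ) ∣ ((i₀ : ℕ) : ℤ) - ((j : ℕ) : ℤ) := by
          have := dvd_sub (hd i₀) (hd j)
          rwa [show (x i₀).order - (x j).order = ((i₀ : ℕ) : ℤ) - ((j : ℕ) : ℤ) by omega] at this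
        apply hj
        apply Fin.ext
        have hi₀e : ((i₀ : ℕ) : ℤ) < e := by exact_mod_cast i₀.2
        have hje : ((j : ℕ) : ℤ) < e := by exact_mod_cast j.2
        have h4 : ((i₀ : ℕ) : ℤ) - ((j : ℕ) : ℤ) = 0 := by
          apply Int.eq_zero_of_abs_lt_dvd h3
          rw [abs_lt]
          constructor <;> omega
        omega
      exact lt_of_le_of_ne h1 h2
  · intro hni
    exact absurd (Finset.mem_univ _) hni

end Laurent

section Root

variable (e : ℕ) [NeZero e]

/-- an `m`-th root of an element `w` of `ℂ((t^e))` with `e m ∣ ord w` lies in `ℂ((t^e))` -/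
theorem tr_root_mem {L : Type*} [Field L] [IsAlgClosed L] [CharZero L] (m : ℕ) (hm : 0 < m)
    (x w : LaurentSeries L) (hw : w ∈ (qExpand L e).range) (hw0 : w ≠ 0)
    (hord : ((e : ℤ) * (m : ℤ)) ∣ w.order) (h : x ^ m = w) : x ∈ (qExpand L e).range := by
  obtain ⟨W, rfl⟩ := hw
  have hW0 : W ≠ 0 := by
    intro h0
    apply hw0
    rw [h0, map_zero]
  have he : (e : ℤ) ≠ 0 := by exact_mod_cast NeZero.ne e
  have hWord : (m : ℤ) ∣ W.order := by
    rw [tr_order_qExpand] at hord
    exact (mul_dvd_mul_iff_left he).1 hord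
  obtain ⟨r, hr⟩ := Fermat.Agent.AJlib.laurent_exists_root L m hm W hW0 hWord
  have h2 : x ^ m = (qExpand L e r) ^ m := by
    rw [h, ← map_pow, hr]
  obtain ⟨ζ, -, hζ⟩ := Fermat.Agent.AJlib.laurent_root_unique L m hm x (qExpand L e r) h2
  refine ⟨HahnSeries.C ζ * r, ?_⟩
  rw [map_mul, qExpand_C, hζ]

end Root

section Fields

variable {R : Type*} [Field R] (e : ℕ) [NeZero e]
variable {A B : Type*} [Field A] [Field B] [Algebra A B] [FiniteDimensional A B]

/-- the subfield of `B` of elements whose expansion lies in `R((t^e))` -/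
def trSub (σ : B →+* LaurentSeries R) (h1 : ∀ a : A, σ (algebraMap A B a) ∈ (qExpand R e).range) :
    IntermediateField A B where
  carrier := {b | σ b ∈ (qExpand R e).range}
  mul_mem' := fun {a b} ha hb => by
    show σ (a * b) ∈ (qExpand R e).range
    rw [map_mul]
    exact mul_mem ha hb
  one_mem' := by
    show σ 1 ∈ (qExpand R e).range
    rw [map_one]
    exact one_mem _
  add_mem' := fun {a b} ha hb => by
    show σ (a + b) ∈ (qExpand R e).range
    rw [map_add]
    exact add_mem ha hb
  zero_mem' := by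
    show σ 0 ∈ (qExpand R e).range
    rw [map_zero]
    exact zero_mem _
  algebraMap_mem' := h1
  inv_mem' := fun a ha => by
    show σ a⁻¹ ∈ (qExpand R e).range
    obtain ⟨W, hW⟩ := ha
    refine ⟨W⁻¹, ?_⟩
    rw [map_inv₀, map_inv₀, hW]

lemma mem_trSub (σ : B →+* LaurentSeries R)
    (h1 : ∀ a : A, σ (algebraMap A B a) ∈ (qExpand R e).range) (b : B) :
    b ∈ trSub e σ h1 ↔ σ b ∈ (qExpand R e).range := Iff.rfl

/-- `[B : trSub] ≥ e` -/
theorem tr_le_finrank (σ : B →+* LaurentSeries R)
    (h1 : ∀ a : A, σ (algebraMap A B a) ∈ (qExpand R e).range)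
    (y : B) (hy : (σ y).order = -1) :
    e ≤ Module.finrank (trSub e σ h1) B := by
  have hli : LinearIndependent (trSub e σ h1) (fun i : Fin e => y ^ (i : ℕ)) := by
    rw [Fintype.linearIndependent_iff]
    intro c hc i
    have h2 : ∑ i : Fin e, σ (c i : B) * (σ y) ^ (i : ℕ) = 0 := by
      have := congrArg σ hc
      rw [map_sum, map_zero] at this
      rw [← this]
      refine Finset.sum_congr rfl fun i _ => ?_
      rw [IntermediateField.smul_def, smul_eq_mul, map_mul, map_pow]
    have h3 := tr_sum_eq_zero e (fun i => σ (c i : B)) (fun i => (c i).2) (σ y) hy h2 i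
    have h4 : (c i : B) = 0 := (map_eq_zero σ).1 h3
    exact Subtype.ext h4
  have := hli.fintype_card_le_finrank
  simpa using this

/-- **transfer, abstract form**: if `[B : A] < 2 e`, every element of `B` whose expansion lies in
`R((t^e))` is in `A`. -/
theorem tr_mem_range_of_lt (σ : B →+* LaurentSeries R)
    (h1 : ∀ a : A, σ (algebraMap A B a) ∈ (qExpand R e).range)
    (y : B) (hy : (σ y).order = -1) (hdeg : Module.finrank A B < 2 * e)
    (g : B) (hg : σ g ∈ (qExpand R e).range) : ∃ a : A, algebraMap A B a = g := by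
  have h2 := tr_le_finrank e σ h1 y hy
  have h3 : Module.finrank A (trSub e σ h1) * Module.finrank (trSub e σ h1) B
      = Module.finrank A B := Module.finrank_mul_finrank A (trSub e σ h1) B
  have h4 : 0 < Module.finrank A (trSub e σ h1) := Module.finrank_pos
  have h5 : Module.finrank A (trSub e σ h1) = 1 := by
    by_contra hne
    have h6 : 2 ≤ Module.finrank A (trSub e σ h1) := by omega
    have h7 : 2 * e ≤ Module.finrank A (trSub e σ h1) * Module.finrank (trSub e σ h1) B :=
      Nat.mul_le_mul h6 h2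
    omega
  have h6 : trSub e σ h1 = ⊥ := IntermediateField.finrank_eq_one_iff.1 h5
  have h7 : g ∈ trSub e σ h1 := hg
  rw [h6, IntermediateField.mem_bot] at h7
  exact h7

end Fields

end Fermat.Agent.S18lib

end
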