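/-
Item 67 (S18), piece S18-T, part 2 (helper2): the expansion of `F_M` at the cusp `0`.

`sigZero M : FF M →+* ℂ((t))`, `t = q_M`, the expansion of `f ∘ S`:
* `sigZero_const` : constants go to constants;
* `sigZero_jdF` : `j(q^d) ↦ j(t^(M/d))` for `d ∣ M`  (`M = d * e'`);
* `sigZero_inclBar_mem` : for `M = N * e`, the image of `F_N` lies in `ℂ((t^e))`;
* `sigZero_jM_order` : `j(q^M) ↦ j(t)` has order `-1`.
No sorry.
-/
import Mathlib
import Fermat.Agent.S24lib.FibersInf
import Fermat.Agent.HeckeBar.ModDeg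
import Fermat.Agent.S18lib.TransferAlg

set_option autoImplicit false

open scoped MatrixGroups ModularForm Manifold Topology
open UpperHalfPlane ModularForm CongruenceSubgroup Filter ModularCurve IntermediateField

noncomputable section

namespace Fermat.Agent.S18lib

open Fermat.Agent.S24lib Fermat.Agent.S20lib Fermat.Agent.HeckeBar

/-- `d · (S • z) = S • (z / d)` -/
lemma tc_nmulH_S_smul (d : ℕ) [NeZero d] (z : ℍ) :
    nmulH d (ModularGroup.S • z) =
      ModularGroup.S • affH 1 d 0 Nat.one_pos (Nat.pos_of_ne_zero (NeZero.ne d)) z := by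
  apply UpperHalfPlane.ext
  rw [coe_nmulH, modular_S_smul, modular_S_smul]
  simp only [coe_affH]
  have hz : (z : ℂ) ≠ 0 := UpperHalfPlane.ne_zero z
  have hd : (d : ℂ) ≠ 0 := by exact_mod_cast NeZero.ne d
  rw [Nat.cast_one, one_mul, Int.cast_zero, add_zero]
  field_simp

/-- the function `z ↦ j(d · S z)` equals `z ↦ j(z / d)` -/
lemma tc_jH_nmulH_S (d : ℕ) [NeZero d] (z : ℍ) :
    jH (nmulH d (ModularGroup.S • z)) =
      jH (affH 1 d 0 Nat.one_pos (Nat.pos_of_ne_zero (NeZero.ne d)) z) := by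
  rw [tc_nmulH_S_smul, jH_smul]

/-- the `q_M`-expansion of `j(d · S z) = j(z/d)` is `j(t^(M/d))` -/
theorem tc_expInf_S_jdWH (M d e' : ℕ) [NeZero M] [NeZero d] [NeZero e'] (hM : M = d * e') :
    expInf M (ModularGroup.S⁻¹ • jdWH M d (hM ▸ dvd_mul_right d e')) =
      qExpand ℂ e' (coeffMap (algebraMap ℚ ℂ) jq) := by
  have hd0 : 0 < d := Nat.pos_of_ne_zero (NeZero.ne d)
  have he0 : 0 < e' := Nat.pos_of_ne_zero (NeZero.ne e')
  have hM0 : 0 < M := Nat.pos_of_ne_zero (NeZero.ne M)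
  have hdM : d ∣ M := hM ▸ dvd_mul_right d e'
  have hdiv : M / d = e' := by rw [hM, Nat.mul_div_cancel_left _ hd0]
  have hsum : ∀ z : ℍ, HasSum (fun k : ℕ =>
      (if e' ∣ k then ((jq.coeff (((k / e' : ℕ) : ℤ) - 1) : ℚ) : ℂ) else 0) *
        Function.Periodic.qParam (M : ℝ) (z : ℂ) ^ k)
      (Function.Periodic.qParam (M : ℝ) (z : ℂ) ^ e' *
        ((ModularGroup.S⁻¹ • jdWH M d hdM : WH M) : ℍ → ℂ) z) := by
    intro z
    refine hasSum_pow_reindex e' he0
      (fun n : ℕ => ((jq.coeff ((n : ℤ) - 1) : ℚ) : ℂ)) _ _ ?_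
    have h := hasSum_jH_affH M 1 d 0 Nat.one_pos hd0 hM0 hdM z
    rw [zpow_zero, one_mul, one_mul, hdiv] at h
    have e1 : ((ModularGroup.S⁻¹ • jdWH M d hdM : WH M) : ℍ → ℂ) z =
        jH (affH 1 d 0 Nat.one_pos hd0 z) := by
      rw [wh_smul_apply, inv_inv]
      show jH (ofComplex ((d : ℂ) * ((ModularGroup.S • z : ℍ) : ℂ))) = _
      rw [jd_raw_eq, tc_jH_nmulH_S]
    rw [e1]
    exact h
  rw [expInf_eq_of_hasSum M _ e' _ hsum]
  ext k
  rw [ei_bridge_coeff e' he0 k, ei_qExpand_coeff e' k]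

/-- the expansion at the cusp `0` -/
def sigZero (M : ℕ) [NeZero M] : FF M →+* LaurentSeries ℂ :=
  embF M (twist M (expInf M) ModularGroup.S⁻¹) (twist_injective M (expInf_injective M) _)

theorem sigZero_const (M : ℕ) [NeZero M] (c : Kbar) :
    sigZero M (algebraMap Kbar (FF M) c) = HahnSeries.C (ιC c) := by
  unfold sigZero
  rw [embF_const, twist_apply, smul_whC, expInf_whC]

theorem sigZero_jdF (M d e' : ℕ) [NeZero M] [NeZero d] [NeZero e'] (hM : M = d * e') :
    sigZero M (jdF M d (hM ▸ dvd_mul_right d e')) =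
      qExpand ℂ e' (coeffMap (algebraMap ℚ ℂ) jq) := by
  unfold sigZero
  rw [embF_jdF, twist_apply, tc_expInf_S_jdWH M d e' hM]

/-- `j(q^M) ↦ j(t)`, of order `-1` -/
theorem sigZero_jM_order (M : ℕ) [NeZero M] :
    (sigZero M (jdF M M dvd_rfl)).order = -1 := by
  have h := sigZero_jdF M M 1 (mul_one M).symm
  rw [h, finf_order_J 1]
  simp

/-- for `M = N * e` the image of `F_N` under the expansion at `0` lies in `ℂ((t^e))` -/
theorem sigZero_inclBar_mem (N M e : ℕ) [NeZero N] [NeZero M] [NeZero e] (hM : M = N * e)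
    (f : FF N) :
    sigZero M (inclBar N M (hM ▸ dvd_mul_right N e) f) ∈ (qExpand ℂ e).range := by
  induction f using FF_induction with
  | hc c =>
    rw [AlgHom.commutes, sigZero_const]
    exact ⟨HahnSeries.C (ιC c), qExpand_C e _⟩
  | hj d hd =>
    obtain ⟨k, hk⟩ := hd
    haveI : NeZero k := ⟨fun h0 => by rw [h0, mul_zero] at hk; exact NeZero.ne N hk⟩
    haveI : NeZero (e * k) := ⟨Nat.mul_ne_zero (NeZero.ne e) (NeZero.ne k)⟩
    have hM' : M = d * (e * k) := by rw [hM, hk]; ring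
    rw [inclBar_jdF]
    have h := sigZero_jdF M d (e * k) hM'
    rw [h, ← qExpand_qExpand]
    exact ⟨_, rfl⟩
  | hadd x y hx hy => rw [map_add, map_add]; exact add_mem hx hy
  | hneg x hx => rw [map_neg, map_neg]; exact neg_mem hx
  | hmul x y hx hy => rw [map_mul, map_mul]; exact mul_mem hx hy
  | hinv x hx =>
    rw [map_inv₀, map_inv₀]
    obtain ⟨W, hW⟩ := hx
    exact ⟨W⁻¹, by rw [map_inv₀, hW]⟩

end Fermat.Agent.S18lib

end
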