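/-
Item 67 (S18), piece S18-T (helper2): TRANSFER DOWN from level `M = N e` to level `N`.

* `exists_root_of_inclBar` : if `u ∈ F_N` is (constant)·(`m`-th power) in `F_M`, `m ∣ ord_P u` for all
  places `P` of `F_N` and `ψ(M) < 2 e ψ(N)`, then `u` is (constant)·(`m`-th power) in `F_N`.
  (expansion at the cusp `0`, where `F_N ⊂ ℂ((t^e))` and `j_M = j(t)` has order `-1`)
* `dedekindPsi_lcm_lt` : the numerics of the auxiliary level `lcm N M₀`.
Exact signatures of NOTES/S18_signatures.lean.txt.  No sorry.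
-/
import Mathlib
import Fermat.Agent.S18lib.TransferCusp
import Fermat.Agent.S24lib.AlgIndex
import Fermat.Agent.GM.Defs

set_option autoImplicit false

open scoped MatrixGroups
open AlgebraicCurve ModularCurve IntermediateField HahnSeries WithZero

noncomputable section

namespace Fermat.Agent.S18lib

open Fermat.Agent.S24lib Fermat.Agent.HeckeBar Fermat.Agent.GM

/-- the order of the expansion at the cusp `0` of `u ∈ F_N` is divisible by `e m` when all
orders of `u` are divisible by `m` -/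
theorem tr_dvd_order_sigZero (N M e : ℕ) [NeZero N] [NeZero M] [NeZero e] (hM : M = N * e)
    (m : ℕ) (u : FF N) (hu : u ≠ 0)
    (hdiv : ∀ P : Place Kbar (FF N), (m : ℤ) ∣ P.ord u) :
    ((e : ℤ) * (m : ℤ)) ∣ (sigZero M (inclBar N M (hM ▸ dvd_mul_right N e) u)).order := by
  set τ : FF N →+* LaurentSeries ℂ :=
    (sigZero M).comp (inclBar N M (hM ▸ dvd_mul_right N e)).toRingHom with hτ
  have hτ_apply : ∀ f : FF N, τ f = sigZero M (inclBar N M (hM ▸ dvd_mul_right N e) f) :=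
    fun f => rfl
  have hK : ∀ c : Kbar, algVal τ (algebraMap Kbar (FF N) c) ≤ 1 := by
    intro c
    by_cases hc : algebraMap Kbar (FF N) c = 0
    · rw [hc, Valuation.map_zero]
      exact zero_le_one
    · rw [algVal_apply_of_ne τ hc, hτ_apply, AlgHom.commutes, sigZero_const,
        HahnSeries.order_C, neg_zero, exp_zero]
  have hnt : ∃ f : FF N, 1 < algVal τ f := by
    refine ⟨jdF N N dvd_rfl, ?_⟩
    have hne : jdF N N dvd_rfl ≠ 0 := by
      intro h0
      have h1 := sigZero_jM_order M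
      have h2 := sigZero_jdF M N e hM
      have h3 : τ (jdF N N dvd_rfl) = 0 := by rw [h0, map_zero]
      rw [hτ_apply, inclBar_jdF, h2] at h3
      have h4 := finf_order_J e
      rw [h3, HahnSeries.order_zero] at h4
      have : (e : ℤ) ≠ 0 := by exact_mod_cast NeZero.ne e
      omega
    rw [algVal_apply_of_ne τ hne, hτ_apply, inclBar_jdF, sigZero_jdF M N e hM, finf_order_J e,
      neg_neg, ← exp_zero, exp_lt_exp]
    exact_mod_cast Nat.pos_of_ne_zero (NeZero.ne e)
  set P : Place Kbar (FF N) := ffPlaceOfVal (algVal τ) hK hnt with hP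
  obtain ⟨s, hs, hidx⟩ := ffExists_index P (algVal τ) rfl
  -- `e ∣ s`
  have hes : (e : ℤ) ∣ (s : ℤ) := by
    obtain ⟨π, hπ0, hπ⟩ := hbc_exists_ord_eq_one P
    have h1 := hidx π hπ0
    rw [algVal_log τ hπ0, hπ, mul_one] at h1
    rw [← h1, hτ_apply]
    obtain ⟨W, hW⟩ := sigZero_inclBar_mem N M e hM π
    rw [← hW]
    exact tr_dvd_order e W
  have h2 := hidx u hu
  rw [algVal_log τ hu] at h2
  rw [← hτ_apply, h2]
  exact mul_dvd_mul hes (hdiv P)

/-- **S18-T.** if `u ∈ F_N` becomes a constant times an `m`-th power in `F_M` and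
`div u ∈ m·Div(F_N)`, then `u` is a constant times an `m`-th power in `F_N`; here
`[F_M : F_N] < 2 (M/N)` (cusp `0`). -/
theorem exists_root_of_inclBar (N M e : ℕ) [NeZero N] [NeZero M] (hM : M = N * e)
    (hdeg : dedekindPsi M < 2 * e * dedekindPsi N) (m : ℕ) (hm : 0 < m)
    (u : FF N) (hu : u ≠ 0)
    (hdiv : ∀ P : Place Kbar (FF N), (m : ℤ) ∣ P.ord u)
    (g : FF M) (c : Kbar)
    (hg : inclBar N M (hM ▸ dvd_mul_right N e) u = algebraMap Kbar (FF M) c * g ^ m) :
    ∃ (g₀ : FF N) (c₀ : Kbar), u = algebraMap Kbar (FF N) c₀ * g₀ ^ m := by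
  haveI : NeZero e := ⟨fun h0 => by rw [h0, mul_zero] at hM; exact NeZero.ne M hM⟩
  set ι := inclBar N M (hM ▸ dvd_mul_right N e) with hι
  have hιu : ι u ≠ 0 := (map_ne_zero ι).2 hu
  have hc : c ≠ 0 := by
    intro h0
    rw [h0, map_zero, zero_mul] at hg
    exact hιu hg
  have hcC : (HahnSeries.C (ιC c) : LaurentSeries ℂ) ≠ 0 := by
    rw [← sigZero_const M c]
    exact (map_ne_zero _).2 ((map_ne_zero _).2 hc)
  -- `σ g ^ m = σ u / c ∈ ℂ((t^e))`
  have hpow : (sigZero M g) ^ m = sigZero M (ι u) * (HahnSeries.C (ιC c))⁻¹ := by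
    rw [hg, map_mul, map_pow, sigZero_const]
    field_simp
  have hmem : sigZero M (ι u) * (HahnSeries.C (ιC c))⁻¹ ∈ (qExpand ℂ e).range := by
    obtain ⟨W, hW⟩ := sigZero_inclBar_mem N M e hM u
    refine ⟨W * (HahnSeries.C (ιC c))⁻¹, ?_⟩
    rw [map_mul, map_inv₀, qExpand_C, hW]
  have hne : sigZero M (ι u) * (HahnSeries.C (ιC c))⁻¹ ≠ 0 :=
    mul_ne_zero ((map_ne_zero _).2 hιu) (inv_ne_zero hcC)
  have hord : ((e : ℤ) * (m : ℤ)) ∣ (sigZero M (ι u) * (HahnSeries.C (ιC c))⁻¹).order := by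
    rw [HahnSeries.order_mul ((map_ne_zero _).2 hιu) (inv_ne_zero hcC), finf_order_inv hcC,
      HahnSeries.order_C, neg_zero, add_zero]
    exact tr_dvd_order_sigZero N M e hM m u hu hdiv
  have hgmem : sigZero M g ∈ (qExpand ℂ e).range :=
    tr_root_mem e m hm (sigZero M g) _ hmem hne hord hpow
  -- the field-theoretic step
  letI := algebraAlong ι
  haveI : FiniteDimensional (FF N) (FF M) := finiteAlong_inclBar N M (hM ▸ dvd_mul_right N e)
  have hfr : Module.finrank (FF N) (FF M) < 2 * e := by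
    have h1 := dedekindPsi_mul_finrankAlong_inclBar N M (hM ▸ dvd_mul_right N e)
    have h2 : dedekindPsi N * finrankAlong Kbar ι < dedekindPsi N * (2 * e) := by
      rw [h1]
      calc dedekindPsi M < 2 * e * dedekindPsi N := hdeg
        _ = dedekindPsi N * (2 * e) := by ring
    exact Nat.lt_of_mul_lt_mul_left h2
  obtain ⟨a, ha⟩ := tr_mem_range_of_lt (A := FF N) (B := FF M) e (sigZero M)
    (fun a => sigZero_inclBar_mem N M e hM a) (jdF M M dvd_rfl) (sigZero_jM_order M) hfr g hgmem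
  have ha' : ι a = g := ha
  refine ⟨a, c, ?_⟩
  have hinj : Function.Injective ι := ι.toRingHom.injective
  apply hinj
  rw [hg, map_mul, map_pow, AlgHom.commutes, ha']

/-- the numerics of the auxiliary level -/
theorem dedekindPsi_lcm_lt (N ℓ : ℕ) [NeZero N] (hℓ : ℓ.Prime) (hℓN : ¬ ℓ ∣ N) :
    ∃ e : ℕ, Nat.lcm N (baseLevel ℓ) = N * e ∧
      dedekindPsi (Nat.lcm N (baseLevel ℓ)) < 2 * e * dedekindPsi N ∧
      IsAuxLevel ℓ (Nat.lcm N (baseLevel ℓ)) := by
  have hN0 : N ≠ 0 := NeZero.ne N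
  have hψ : 0 < dedekindPsi N := dedekindPsi_pos N
  -- the prime `p` with `M₀ = p²`
  obtain ⟨p, hp, hp1, hbase, hℓp⟩ : ∃ p : ℕ, p.Prime ∧ 1 < p ∧ baseLevel ℓ = p * p ∧ ℓ ≠ p := by
    unfold baseLevel
    by_cases h2 : ℓ = 2
    · exact ⟨3, Nat.prime_three, by norm_num, by rw [if_pos h2], by rw [h2]; norm_num⟩
    · exact ⟨2, Nat.prime_two, by norm_num, by rw [if_neg h2], h2⟩
  have haux : ∀ M : ℕ, ¬ ℓ ∣ M → p * p ∣ M → IsAuxLevel ℓ M := by
    intro M h1 h2
    refine ⟨h1, ?_⟩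
    unfold baseLevel at hbase
    by_cases hℓ2 : ℓ = 2
    · rw [if_pos hℓ2] at hbase
      exact Or.inr ⟨hℓ2, hbase ▸ h2⟩
    · rw [if_neg hℓ2] at hbase
      exact Or.inl ⟨hℓ2, hbase ▸ h2⟩
  have hℓp' : ¬ ℓ ∣ p := fun h => hℓp ((Nat.prime_dvd_prime_iff_eq hℓ hp).1 h)
  rw [hbase]
  by_cases h1 : p ∣ N
  · by_cases h2 : p * p ∣ N
    · -- `e = 1`
      refine ⟨1, ?_, ?_, ?_⟩
      · rw [mul_one]
        exact Nat.lcm_eq_left h2
      · rw [Nat.lcm_eq_left h2]
        omega
      · rw [Nat.lcm_eq_left h2]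
        exact haux N hℓN h2
    · -- `e = p`
      obtain ⟨k, hk⟩ := h1
      have hpk : ¬ p ∣ k := fun ⟨j, hj⟩ => h2 ⟨j, by rw [hk, hj]; ring⟩
      have hk0 : k ≠ 0 := fun h0 => hN0 (by rw [hk, h0, mul_zero])
      have hlcm : Nat.lcm N (p * p) = N * p := by
        rw [hk]
        have hcop : Nat.Coprime k p := ((Nat.Prime.coprime_iff_not_dvd hp).2 hpk).symm
        rw [Nat.lcm_mul_left]
        have : Nat.lcm k p = k * p := hcop.lcm_eq_mul
        rw [this]
        ring
      refine ⟨p, hlcm, ?_, ?_⟩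
      · rw [hlcm, mul_comm N p,
          Fermat.Agent.S20lib.dedekindPsi_prime_mul_of_dvd hp hN0 ⟨k, hk⟩]
        nlinarith
      · rw [hlcm]
        refine haux _ ?_ ⟨k, by rw [hk]; ring⟩
        intro h
        rcases (Nat.Prime.dvd_mul hℓ).1 h with h | h
        · exact hℓN h
        · exact hℓp' h
  · -- `e = p²`
    have hcop : Nat.Coprime N (p * p) :=
      Nat.Coprime.mul_right ((Nat.Prime.coprime_iff_not_dvd hp).2 h1).symm
        ((Nat.Prime.coprime_iff_not_dvd hp).2 h1).symm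
    have hlcm : Nat.lcm N (p * p) = N * (p * p) := hcop.lcm_eq_mul
    refine ⟨p * p, hlcm, ?_, ?_⟩
    · have e1 : N * (p * p) = p * (p * N) := by ring
      have hpN0 : p * N ≠ 0 := Nat.mul_ne_zero hp.ne_zero hN0
      rw [hlcm, e1, Fermat.Agent.S20lib.dedekindPsi_prime_mul_of_dvd hp hpN0 (dvd_mul_right p N),
        Fermat.Agent.S20lib.dedekindPsi_prime_mul_of_not_dvd hp hN0 h1]
      have h3 : p + 1 < 2 * p := by omega
      calc p * ((p + 1) * dedekindPsi N) = (p * dedekindPsi N) * (p + 1) := by ring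
        _ < (p * dedekindPsi N) * (2 * p) :=
            Nat.mul_lt_mul_of_pos_left h3 (Nat.mul_pos hp.pos hψ)
        _ = 2 * (p * p) * dedekindPsi N := by ring
    · rw [hlcm]
      refine haux _ ?_ (dvd_mul_left _ _)
      intro h
      rcases (Nat.Prime.dvd_mul hℓ).1 h with h | h
      · exact hℓN h
      · rcases (Nat.Prime.dvd_mul hℓ).1 h with h | h
        · exact hℓp' h
        · exact hℓp' h

end Fermat.Agent.S18lib

end
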