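/-
Item 67 (S18), piece S18-W (helper21): the wiring.

`s18_of_aux`: S18 at level `N` from the normalisation at level `N` (`exists_normalised`), the
abstract theorem at an auxiliary level `M = N e` (`principal_of_red_eq_one`, on the constant
reduction `exists_modConstRed` of `F_M`) and the transfer down (`exists_root_of_inclBar`).
Inputs at level `M`: `hred` (reductions of integral elements of `F_M` lie in `F_{M,k}`) and the
genus inequality `g(F_M) ≤ g(F_{M,k})`.
-/
import Mathlib
import Fermat.Agent.S18lib.Normalise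
import Fermat.Agent.S18lib.Abstract
import Fermat.Agent.S18lib.Transfer
import Fermat.Agent.GoodRed.ModDatum
import Fermat.Agent.GoodRed.ModRR
import Fermat.Agent.GoodRed.Echelon
import Fermat.Agent.RRlib.Modular

set_option autoImplicit false
set_option synthInstance.maxHeartbeats 400000

noncomputable section

namespace Fermat.Agent.S18lib

open AlgebraicCurve ModularCurve IntermediateField HahnSeries
open Fermat.Agent.RRlib Fermat.Agent.GoodRed Fermat.Agent.S24lib Fermat.Agent.HeckeBar
  Fermat.Agent.GM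

section ConstRedUnit

variable {K F k Fk : Type*} [Field K] [Field F] [Algebra K F] [Field k] [Field Fk] [Algebra k Fk]
variable {A : ValuationSubring K} {π : A →+* k}

/-- an element of `O` with nonzero reduction is a unit of `O` -/
theorem w18_inv_mem (R : ConstRed A π Fk F) (y : R.O) (hy : R.red y ≠ 0) :
    ∃ h : ((y : R.O) : F)⁻¹ ∈ R.O, R.red ⟨_, h⟩ = (R.red y)⁻¹ := by
  have hy0 : ((y : R.O) : F) ≠ 0 := by
    intro h0
    apply hy
    have : y = 0 := Subtype.ext h0
    rw [this, map_zero]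
  have hmem : ((y : R.O) : F)⁻¹ ∈ R.O := by
    by_contra hnot
    -- then `y` is a non-unit of `O`
    have hnu : ¬ IsUnit y := by
      intro hu
      obtain ⟨v, hv⟩ := hu.exists_right_inv
      apply hnot
      have h1 : ((y : R.O) : F) * ((v : R.O) : F) = 1 := by
        have := congrArg (fun t : R.O => (t : F)) hv
        simpa using this
      have h2 : ((y : R.O) : F)⁻¹ = ((v : R.O) : F) := inv_eq_of_mul_eq_one_right h1
      rw [h2]
      exact v.2
    have hker : IsLocalRing.maximalIdeal R.O = RingHom.ker R.red := by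
      have : (RingHom.ker R.red).IsMaximal := RingHom.ker_isMaximal_of_surjective R.red
        R.red_surjective
      exact (IsLocalRing.eq_maximalIdeal this).symm
    have h3 : y ∈ IsLocalRing.maximalIdeal R.O := (IsLocalRing.mem_maximalIdeal y).mpr hnu
    rw [hker, RingHom.mem_ker] at h3
    exact hy h3
  refine ⟨hmem, ?_⟩
  have h4 : y * ⟨_, hmem⟩ = 1 := Subtype.ext (by
    show ((y : R.O) : F) * ((y : R.O) : F)⁻¹ = 1
    exact mul_inv_cancel₀ hy0)
  have h5 := congrArg R.red h4
  rw [map_mul, map_one] at h5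
  exact eq_inv_of_mul_eq_one_right h5

end ConstRedUnit

section Torsion

variable {K F : Type*} [Field K] [Field F] [Algebra K F]

theorem w18_eq_of_nsmul_eq {m : ℕ} (hm : m ≠ 0) {D D' : Divisor K F} (h : m • D = m • D') :
    D = D' := by
  ext v
  have h1 := DFunLike.congr_fun h v
  rw [Finsupp.smul_apply, Finsupp.smul_apply, nsmul_eq_mul, nsmul_eq_mul] at h1
  have hm' : (m : ℤ) ≠ 0 := by exact_mod_cast hm
  exact mul_left_cancel₀ hm' h1

end Torsion

set_option maxHeartbeats 1600000 in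
/-- **S18 from the auxiliary level**: `M = N e` a level with `[F_M : F_N] < 2e`, at which the
reductions of integral elements lie in `F_{M,k}` and the genus inequality holds. -/
theorem s18_of_aux (N M e : ℕ) [NeZero N] [NeZero M] (hM : M = N * e)
    (hdeg : dedekindPsi M < 2 * e * dedekindPsi N)
    (A : ValuationSubring (AlgebraicClosure ℚ)) (hA : A ≠ ⊤)
    (hredM : ∀ y : LaurentSeries A, coeffMap A.subtype y ∈ modularFunctionFieldBar M →
      coeffMap (IsLocalRing.residue A) y ∈
        modularFunctionFieldFullC (IsLocalRing.ResidueField A) M)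
    (hgM : genusFF (AlgebraicClosure ℚ) (↥(modularFunctionFieldBar M)) ≤
      genusFF (IsLocalRing.ResidueField A)
        (↥(modularFunctionFieldFullC (IsLocalRing.ResidueField A) M)))
    (h : ReductionInputsModL A N) (m : ℕ) (hm : (m : IsLocalRing.ResidueField A) ≠ 0)
    (z : JZero N) (hmz : m • z = 0) (hz : reductionModL A N z = 0) : z = 0 := by
  haveI : IsAlgClosed (IsLocalRing.ResidueField A) := isAlgClosed_residueField A
  haveI : Infinite (IsLocalRing.ResidueField A) := IsAlgClosed.instInfinite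
  haveI : RRHyp Kbar (FF N) := mod_rrHyp N
  haveI : RRHyp Kbar (FF M) := mod_rrHyp M
  haveI : RRHyp (IsLocalRing.ResidueField A)
      (↥(modularFunctionFieldFullC (IsLocalRing.ResidueField A) N)) := mr_rrHyp _ N
  haveI : RRHyp (IsLocalRing.ResidueField A)
      (↥(modularFunctionFieldFullC (IsLocalRing.ResidueField A) M)) := mr_rrHyp _ M
  haveI : HasPrincipalDivisors Kbar (FF M) := ⟨RRBase.principal⟩
  have hm0 : m ≠ 0 := by
    rintro rfl
    exact hm Nat.cast_zero
  obtain ⟨E, a, b, ha, hb, hEz, hab, hb0, hmE⟩ :=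
    exists_normalised N A h m (Nat.pos_of_ne_zero hm0) z hmz hz
  obtain ⟨R, hR⟩ := exists_modConstRed M A hA hredM
  have hNM : N ∣ M := hM ▸ dvd_mul_right N e
  have haM : coeffMap A.subtype a ∈ modularFunctionFieldBar M := ffBar_mono hNM ha
  have hbM : coeffMap A.subtype b ∈ modularFunctionFieldBar M := ffBar_mono hNM hb
  obtain ⟨haO, hared⟩ := hR a haM
  obtain ⟨hbO, hbred⟩ := hR b hbM
  -- the elements at level `N`
  have ha0 : coeffMap (IsLocalRing.residue A) a ≠ 0 := by rw [hab]; exact hb0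
  have haN0 : (⟨coeffMap A.subtype a, ha⟩ : FF N) ≠ 0 := by
    intro h0
    have h1 : coeffMap A.subtype a = 0 := congrArg Subtype.val h0
    have h2 : a = 0 := coeffMap_subtype_inj18 (by rw [h1, map_zero])
    exact ha0 (by rw [h2, map_zero])
  have hbN0 : (⟨coeffMap A.subtype b, hb⟩ : FF N) ≠ 0 := by
    intro h0
    have h1 : coeffMap A.subtype b = 0 := congrArg Subtype.val h0
    have h2 : b = 0 := coeffMap_subtype_inj18 (by rw [h1, map_zero])
    exact hb0 (by rw [h2, map_zero])
  set uN : FF N := (⟨coeffMap A.subtype a, ha⟩ : FF N) * (⟨coeffMap A.subtype b, hb⟩ : FF N)⁻¹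
    with huN
  have huN0 : uN ≠ 0 := mul_ne_zero haN0 (inv_ne_zero hbN0)
  have hmE' : ∀ P : Place Kbar (FF N), (m • (E : Divisor Kbar (FF N))) P = P.ord uN := by
    intro P
    rw [hmE P, huN, Place.ord_mul _ haN0 (inv_ne_zero hbN0), Place.ord_inv]
    ring
  -- the unit `u'` at level `M`
  have hb'red : R.red ⟨⟨coeffMap A.subtype b, hbM⟩, hbO⟩ ≠ 0 := by
    intro h0
    apply hb0
    rw [← hbred, h0]
    rfl
  have hab' : R.red ⟨⟨coeffMap A.subtype a, haM⟩, haO⟩
      = R.red ⟨⟨coeffMap A.subtype b, hbM⟩, hbO⟩ :=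
    Subtype.ext (by rw [hared, hbred, hab])
  obtain ⟨hbinv, hbinvred⟩ := w18_inv_mem R ⟨⟨coeffMap A.subtype b, hbM⟩, hbO⟩ hb'red
  have hu'red : R.red ((⟨⟨coeffMap A.subtype a, haM⟩, haO⟩ : R.O) * ⟨_, hbinv⟩) = 1 := by
    rw [map_mul, hbinvred, hab', mul_inv_cancel₀ hb'red]
  have hιu : inclBar N M hNM uN
      = (((⟨⟨coeffMap A.subtype a, haM⟩, haO⟩ : R.O) * ⟨_, hbinv⟩ : R.O) : FF M) := by
    rw [huN, map_mul, map_inv₀]
    rfl
  have hιint : (inclBar N M hNM).toRingHom.IsIntegral := isIntegral_inclBar N M hNM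
  have hE' : m • Divisor.pullbackAlong (inclBar N M hNM) hιint (E : Divisor Kbar (FF N))
      = divOf (K := Kbar)
        (((⟨⟨coeffMap A.subtype a, haM⟩, haO⟩ : R.O) * ⟨_, hbinv⟩ : R.O) : FF M) := by
    rw [← map_nsmul, ← hιu]
    ext w
    rw [pullbackAlong_apply_eq_ord (inclBar N M hNM) hιint hmE' w,
      divOf_apply ((map_ne_zero _).mpr huN0)]
  obtain ⟨s, hs, hE's⟩ := principal_of_red_eq_one R hgM m hm _ hu'red _ hE'
  -- `ι u = c s^m`
  have hw : ∀ w : Place Kbar (FF M), w.ord (inclBar N M hNM uN * (s ^ m)⁻¹) = 0 := by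
    intro w
    have e1 := DFunLike.congr_fun hE' w
    rw [Finsupp.smul_apply, nsmul_eq_mul, hE's w, ← hιu,
      divOf_apply ((map_ne_zero _).mpr huN0)] at e1
    rw [Place.ord_mul _ ((map_ne_zero _).mpr huN0) (inv_ne_zero (pow_ne_zero _ hs)),
      Place.ord_inv, ord_pow_nat, ← e1]
    ring
  obtain ⟨c, hc⟩ := RRBase.const_of_forall_ord_nonneg (K := Kbar)
    (inclBar N M hNM uN * (s ^ m)⁻¹) (fun w => (hw w).ge)
  have hg : inclBar N M (hM ▸ dvd_mul_right N e) uN = algebraMap Kbar (FF M) c * s ^ m := by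
    rw [hc, mul_assoc, inv_mul_cancel₀ (pow_ne_zero _ hs), mul_one]
  have hdiv : ∀ P : Place Kbar (FF N), (m : ℤ) ∣ P.ord uN := by
    intro P
    rw [← hmE' P, Finsupp.smul_apply, nsmul_eq_mul]
    exact dvd_mul_right _ _
  obtain ⟨g₀, c₀, hu⟩ := exists_root_of_inclBar N M e hM hdeg m (Nat.pos_of_ne_zero hm0)
    uN huN0 hdiv s c hg
  -- `E = div g₀`
  have hc₀ : algebraMap Kbar (FF N) c₀ ≠ 0 := by
    intro h0
    rw [h0, zero_mul] at hu
    exact huN0 hu
  have hg₀ : g₀ ≠ 0 := by
    intro h0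
    rw [h0, zero_pow hm0, mul_zero] at hu
    exact huN0 hu
  have hEg : (E : Divisor Kbar (FF N)) = divOf (K := Kbar) g₀ := by
    apply w18_eq_of_nsmul_eq hm0
    ext P
    rw [hmE' P, hu, Place.ord_mul _ hc₀ (pow_ne_zero _ hg₀), cxa_ord_const, zero_add,
      ord_pow_nat, Finsupp.smul_apply, nsmul_eq_mul, divOf_apply hg₀]
  rw [← hEz]
  exact mk_eq_zero_of_mem_principal E ⟨g₀, hg₀, fun v => by rw [hEg, divOf_apply hg₀]⟩

end Fermat.Agent.S18lib

end
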