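/-
Item 67 (S18), final assembly (helper21): S18 from the two inputs at the auxiliary levels
(`hred` = reductions of integral elements of `F_M` lie in `F_{M,k}`; genus inequality (G_M)).
-/
import Mathlib
import Fermat.Agent.S18lib.Wiring
import Fermat.Agent.GM.RedInstDefs

set_option autoImplicit false
set_option synthInstance.maxHeartbeats 400000

noncomputable section

namespace Fermat.Agent.S18lib

open AlgebraicCurve ModularCurve IntermediateField HahnSeries
open Fermat.Agent.RRlib Fermat.Agent.GoodRed Fermat.Agent.S24lib Fermat.Agent.HeckeBar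
  Fermat.Agent.GM

variable {A : ValuationSubring (AlgebraicClosure ℚ)}

theorem w18_ne_top {ℓ : ℕ} [Fact ℓ.Prime] (hA : A.LiesOverPrime ℓ) : A ≠ ⊤ := by
  intro htop
  have hnu : ((ℓ : ℕ) : AlgebraicClosure ℚ) ∈ A.nonunits := hA
  rw [ValuationSubring.mem_nonunits_iff_exists_mem_maximalIdeal] at hnu
  obtain ⟨ha, hmax⟩ := hnu
  apply (IsLocalRing.mem_maximalIdeal _).mp hmax
  have hℓ0 : ((ℓ : ℕ) : AlgebraicClosure ℚ) ≠ 0 :=
    Nat.cast_ne_zero.mpr (Fact.out : ℓ.Prime).ne_zero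
  have hinv : ((ℓ : ℕ) : AlgebraicClosure ℚ)⁻¹ ∈ A := by
    rw [htop]
    exact ValuationSubring.mem_top _
  exact IsUnit.of_mul_eq_one (⟨_, hinv⟩ : A) (Subtype.ext (mul_inv_cancel₀ hℓ0))

theorem w18_natCast_ne_zero {ℓ : ℕ} [Fact ℓ.Prime] (hA : A.LiesOverPrime ℓ) (m : ℕ)
    (hm : ¬ ℓ ∣ m) : (m : IsLocalRing.ResidueField A) ≠ 0 := by
  haveI := charP_residueField hA
  intro h0
  exact hm ((CharP.cast_eq_zero_iff (IsLocalRing.ResidueField A) ℓ m).mp h0)

/-- **S18**, from `hred` and (G_M) at the auxiliary levels. -/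
theorem s18_of_inputs (N : ℕ) [NeZero N] {ℓ : ℕ} [Fact ℓ.Prime] (hℓN : ¬ ℓ ∣ N)
    (A : ValuationSubring (AlgebraicClosure ℚ)) (hA : A.LiesOverPrime ℓ)
    (hredAll : ∀ (M : ℕ) [NeZero M], ¬ ℓ ∣ M →
      ∀ y : LaurentSeries A, coeffMap A.subtype y ∈ modularFunctionFieldBar M →
        coeffMap (IsLocalRing.residue A) y ∈
          modularFunctionFieldFullC (IsLocalRing.ResidueField A) M)
    (hgAll : ∀ (M : ℕ) [NeZero M], IsAuxLevel ℓ M →
      genusFF (AlgebraicClosure ℚ) (↥(modularFunctionFieldBar M)) ≤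
        genusFF (IsLocalRing.ResidueField A)
          (↥(modularFunctionFieldFullC (IsLocalRing.ResidueField A) M)))
    (h : ReductionInputsModL A N) (m : ℕ) (hm : ¬ ℓ ∣ m) (z : JZero N)
    (hmz : m • z = 0) (hz : reductionModL A N z = 0) : z = 0 := by
  obtain ⟨e, hM, hdeg, hAux⟩ := dedekindPsi_lcm_lt N ℓ (Fact.out : ℓ.Prime) hℓN
  haveI : NeZero (Nat.lcm N (baseLevel ℓ)) :=
    ⟨Nat.lcm_ne_zero (NeZero.ne N) (NeZero.ne (baseLevel ℓ))⟩
  exact s18_of_aux N (Nat.lcm N (baseLevel ℓ)) e hM hdeg A (w18_ne_top hA)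
    (hredAll _ hAux.1) (hgAll _ hAux) h m (w18_natCast_ne_zero hA m hm) z hmz hz

end Fermat.Agent.S18lib

end
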