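/-
Item 67 (S18), piece S18-N part 1 (helper21): every element of the function field `F_{N,k}`
(`k` the residue field of a valuation ring `A ⊂ ℚ̄`) is a quotient of reductions of elements of
`A((q)) ∩ F_N`.
-/
import Mathlib
import Fermat.Prelude.Def_ModularCurve_ReductionModL

set_option autoImplicit false
set_option synthInstance.maxHeartbeats 400000

noncomputable section

namespace Fermat.Agent.S18lib

open AlgebraicCurve ModularCurve IntermediateField HahnSeries

variable (A : ValuationSubring (AlgebraicClosure ℚ)) (N : ℕ)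

/-- `y ∈ A((q))` is *admissible* (at level `N`): it lies in `F_N` and its reduction lies in
`F_{N,k}`. -/
def Adm (y : LaurentSeries A) : Prop :=
  coeffMap A.subtype y ∈ modularFunctionFieldBar N ∧
    coeffMap (IsLocalRing.residue A) y ∈
      modularFunctionFieldFullC (IsLocalRing.ResidueField A) N

variable {A N}

theorem Adm.mul {y y' : LaurentSeries A} (h : Adm A N y) (h' : Adm A N y') : Adm A N (y * y') := by
  refine ⟨?_, ?_⟩
  · rw [map_mul]; exact mul_mem h.1 h'.1
  · rw [map_mul]; exact mul_mem h.2 h'.2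

theorem Adm.add {y y' : LaurentSeries A} (h : Adm A N y) (h' : Adm A N y') : Adm A N (y + y') := by
  refine ⟨?_, ?_⟩
  · rw [map_add]; exact add_mem h.1 h'.1
  · rw [map_add]; exact add_mem h.2 h'.2

theorem Adm.neg {y : LaurentSeries A} (h : Adm A N y) : Adm A N (-y) := by
  refine ⟨?_, ?_⟩
  · rw [map_neg]; exact neg_mem h.1
  · rw [map_neg]; exact neg_mem h.2

theorem Adm.one : Adm A N (1 : LaurentSeries A) := by
  refine ⟨?_, ?_⟩
  · rw [map_one]; exact one_mem _
  · rw [map_one]; exact one_mem _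

theorem Adm.zero : Adm A N (0 : LaurentSeries A) := by
  refine ⟨?_, ?_⟩
  · rw [map_zero]; exact zero_mem _
  · rw [map_zero]; exact zero_mem _

theorem Adm.pow {y : LaurentSeries A} (h : Adm A N y) (n : ℕ) : Adm A N (y ^ n) := by
  induction n with
  | zero => rw [pow_zero]; exact Adm.one
  | succ n ih => rw [pow_succ]; exact ih.mul h

theorem Adm.const (c : A) : Adm A N (HahnSeries.single 0 c : LaurentSeries A) := by
  refine ⟨?_, ?_⟩
  · rw [coeffMap_single, ← algebraMap_laurentSeries_eq_single]
    exact (modularFunctionFieldBar N).algebraMap_mem _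
  · rw [coeffMap_single, ← algebraMap_laurentSeries_eq_single]
    exact (modularFunctionFieldFullC (IsLocalRing.ResidueField A) N).algebraMap_mem _

theorem coeffMap_comp_eq {R S T : Type*} [CommRing R] [CommRing S] [CommRing T]
    (g : S →+* T) (f : R →+* S) (h : R →+* T) (hh : g.comp f = h) (x : LaurentSeries R) :
    coeffMap g (coeffMap f x) = coeffMap h x := by
  rw [coeffMap_coeffMap, hh]

theorem Adm.jd {d : ℕ} [NeZero d] (hd : d ∣ N) [NeZero N] :
    Adm A N (qExpand A d (jqModC A)) := by
  refine ⟨?_, ?_⟩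
  · rw [coeffMap_qExpand, coeffMap_jqModC]
    have h1 : coeffEmb (AlgebraicClosure ℚ) (qExpand ℚ d jq) ∈ modularFunctionFieldBar N :=
      coeffEmb_mem_laurentBaseChange _ (jqd_mem_full N hd)
    have h2 : coeffEmb (AlgebraicClosure ℚ) (qExpand ℚ d jq)
        = qExpand (AlgebraicClosure ℚ) d (jqModC (AlgebraicClosure ℚ)) := by
      rw [coeffEmb, coeffMap_qExpand]
      congr 1
      exact coeffMap_jqModC (R := ℚ) (algebraMap ℚ (AlgebraicClosure ℚ))
    rwa [h2] at h1
  · rw [coeffMap_qExpand, coeffMap_jqModC]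
    exact jqModCd_mem_full _ N hd

/-- **LIFT**: every element of `F_{N,k}` is a quotient of reductions of admissible series. -/
theorem exists_lift_adm [NeZero N] (x : LaurentSeries (IsLocalRing.ResidueField A))
    (hx : x ∈ modularFunctionFieldFullC (IsLocalRing.ResidueField A) N) :
    ∃ a b : LaurentSeries A, Adm A N a ∧ Adm A N b ∧
      coeffMap (IsLocalRing.residue A) b ≠ 0 ∧
      x * coeffMap (IsLocalRing.residue A) b = coeffMap (IsLocalRing.residue A) a := by
  unfold modularFunctionFieldFullC at hx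
  induction hx using IntermediateField.adjoin_induction with
  | mem x hx =>
    obtain ⟨d, hne, hd, rfl⟩ := hx
    haveI := hne
    refine ⟨qExpand A d (jqModC A), 1, Adm.jd hd, Adm.one, ?_, ?_⟩
    · rw [map_one]; exact one_ne_zero
    · rw [map_one, mul_one, coeffMap_qExpand, coeffMap_jqModC]
  | algebraMap c =>
    obtain ⟨c', rfl⟩ := IsLocalRing.residue_surjective c
    refine ⟨HahnSeries.single 0 c', 1, Adm.const c', Adm.one, ?_, ?_⟩
    · rw [map_one]; exact one_ne_zero
    · rw [map_one, mul_one, coeffMap_single, algebraMap_laurentSeries_eq_single]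
  | add x y hx hy ihx ihy =>
    obtain ⟨a, b, ha, hb, hb0, hab⟩ := ihx
    obtain ⟨a', b', ha', hb', hb0', hab'⟩ := ihy
    refine ⟨a * b' + a' * b, b * b', (ha.mul hb').add (ha'.mul hb), hb.mul hb', ?_, ?_⟩
    · rw [map_mul]; exact mul_ne_zero hb0 hb0'
    · rw [map_add, map_mul, map_mul, map_mul, ← hab, ← hab']; ring
  | inv x hx ih =>
    obtain ⟨a, b, ha, hb, hb0, hab⟩ := ih
    rcases eq_or_ne x 0 with rfl | hx0
    · refine ⟨0, 1, Adm.zero, Adm.one, ?_, ?_⟩
      · rw [map_one]; exact one_ne_zero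
      · rw [map_zero, inv_zero, zero_mul]
    · refine ⟨b, a, hb, ha, ?_, ?_⟩
      · rw [← hab]; exact mul_ne_zero hx0 hb0
      · rw [← hab, ← mul_assoc, inv_mul_cancel₀ hx0, one_mul]
  | mul x y hx hy ihx ihy =>
    obtain ⟨a, b, ha, hb, hb0, hab⟩ := ihx
    obtain ⟨a', b', ha', hb', hb0', hab'⟩ := ihy
    refine ⟨a * a', b * b', ha.mul ha', hb.mul hb', ?_, ?_⟩
    · rw [map_mul]; exact mul_ne_zero hb0 hb0'
    · rw [map_mul, map_mul, ← hab, ← hab']; ring

end Fermat.Agent.S18lib

end
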