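/-
Item 67 (S18), piece S18-N (helper21): normalisation at level `N`.

From `m z = 0` and `red z = 0` in `J₀(N)`: `z = [E]` with `m E = div (a / b)`, where
`a, b ∈ A((q)) ∩ F_N` have the same nonzero reduction.
-/
import Mathlib
import Fermat.Prelude.Def_ModularCurve_ReductionModL
import Fermat.Agent.RRlib.Defs
import Fermat.Agent.S18lib.Lift

set_option autoImplicit false
set_option synthInstance.maxHeartbeats 400000

noncomputable section

namespace Fermat.Agent.S18lib

open AlgebraicCurve ModularCurve IntermediateField HahnSeries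
open Fermat.Agent.RRlib

variable {A : ValuationSubring (AlgebraicClosure ℚ)} {N : ℕ}

/-- the element of `F_N` given by an admissible series -/
def Adm.elt {y : LaurentSeries A} (h : Adm A N y) : ↥(modularFunctionFieldBar N) :=
  ⟨coeffMap A.subtype y, h.1⟩

/-- the element of `F_{N,k}` given by an admissible series -/
def Adm.red {y : LaurentSeries A} (h : Adm A N y) :
    ↥(modularFunctionFieldFullC (IsLocalRing.ResidueField A) N) :=
  ⟨coeffMap (IsLocalRing.residue A) y, h.2⟩

theorem coeffMap_subtype_inj18 :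
    Function.Injective (coeffMap (R := A) (S := AlgebraicClosure ℚ) A.subtype) := by
  intro x y hxy
  ext n
  have h := congrArg (fun z => z.coeff n) hxy
  simp only [coeffMap_coeff] at h
  exact h

theorem Adm.elt_ne_zero {y : LaurentSeries A} (h : Adm A N y) (hy : h.red ≠ 0) : h.elt ≠ 0 := by
  intro h0
  apply hy
  have h1 : coeffMap A.subtype y = 0 := congrArg Subtype.val h0
  have h2 : y = 0 := coeffMap_subtype_inj18 (by rw [h1, map_zero])
  apply Subtype.ext
  show coeffMap (IsLocalRing.residue A) y = 0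
  rw [h2, map_zero]

theorem Adm.elt_mul {y y' : LaurentSeries A} (h : Adm A N y) (h' : Adm A N y') :
    (h.mul h').elt = h.elt * h'.elt :=
  Subtype.ext (map_mul _ _ _)

theorem Adm.red_mul {y y' : LaurentSeries A} (h : Adm A N y) (h' : Adm A N y') :
    (h.mul h').red = h.red * h'.red :=
  Subtype.ext (map_mul _ _ _)

theorem Adm.elt_one : (Adm.one : Adm A N 1).elt = 1 :=
  Subtype.ext (map_one _)

theorem Adm.red_one : (Adm.one : Adm A N 1).red = 1 :=
  Subtype.ext (map_one _)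

theorem Adm.elt_pow {y : LaurentSeries A} (h : Adm A N y) (n : ℕ) :
    (h.pow n).elt = h.elt ^ n :=
  Subtype.ext (map_pow _ _ _)

theorem Adm.red_pow {y : LaurentSeries A} (h : Adm A N y) (n : ℕ) :
    (h.pow n).red = h.red ^ n :=
  Subtype.ext (map_pow _ _ _)

theorem ord_pow_nat {K F : Type*} [Field K] [Field F] [Algebra K F] (v : Place K F) (f : F)
    (n : ℕ) : v.ord (f ^ n) = n * v.ord f := by
  rw [← zpow_natCast, Place.ord_zpow]

theorem mem_principal_of_mk_eq_zero {K F : Type*} [Field K] [Field F] [Algebra K F]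
    (D : Divisor.degZero (K := K) (F := F)) (h : Pic0.mk D = 0) :
    (D : Divisor K F) ∈ Divisor.principal (K := K) (F := F) := by
  have h2 := (QuotientAddGroup.eq_zero_iff D).mp h
  exact AddSubgroup.mem_addSubgroupOf.mp h2

theorem mk_eq_zero_of_mem_principal {K F : Type*} [Field K] [Field F] [Algebra K F]
    (D : Divisor.degZero (K := K) (F := F))
    (h : (D : Divisor K F) ∈ Divisor.principal (K := K) (F := F)) : Pic0.mk D = 0 :=
  (QuotientAddGroup.eq_zero_iff D).mpr (AddSubgroup.mem_addSubgroupOf.mpr h)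

theorem mk_sub_eq_of_mem_principal {K F : Type*} [Field K] [Field F] [Algebra K F]
    (D X : Divisor.degZero (K := K) (F := F))
    (h : (X : Divisor K F) ∈ Divisor.principal (K := K) (F := F)) :
    Pic0.mk (D - X) = Pic0.mk D := by
  have h1 : Pic0.mk (D - X) = Pic0.mk D - Pic0.mk X := rfl
  rw [h1, mk_eq_zero_of_mem_principal X h, sub_zero]

section

/-- every principal divisor is `div a - div b`, `a`, `b` admissible with nonzero reductions, and
its reduction is `div ā - div b̄`. -/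
theorem exists_adm_of_principal (h : ReductionInputsModL A N)
    (D : Divisor (AlgebraicClosure ℚ) (↥(modularFunctionFieldBar N)))
    (hD : D ∈ Divisor.principal (K := AlgebraicClosure ℚ) (F := ↥(modularFunctionFieldBar N))) :
    ∃ (a b : LaurentSeries A) (ha : Adm A N a) (hb : Adm A N b),
      ha.red ≠ 0 ∧ hb.red ≠ 0 ∧
      (∀ P, D P = P.ord ha.elt - P.ord hb.elt) ∧
      (∀ Q, Finsupp.mapDomain (placeReductionModL h) D Q = Q.ord ha.red - Q.ord hb.red) := by
  have hr := isPlaceReductionModL_placeReductionModL h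
  have hgen : PrincipalGeneratedByIntegral A (IsLocalRing.residue A) N := h.choose_spec.2
  have hD' := hgen hD
  clear hD
  induction hD' using AddSubgroup.closure_induction with
  | mem E hE =>
    obtain ⟨y, hy, hyk, hne, hEy⟩ := hE
    have hAy : Adm A N y := ⟨hy, hyk⟩
    refine ⟨y, 1, hAy, Adm.one, ?_, ?_, ?_, ?_⟩
    · intro h0; exact hne (congrArg Subtype.val h0)
    · rw [Adm.red_one]; exact one_ne_zero
    · intro P
      rw [Adm.elt_one, Place.ord_one, sub_zero]
      exact hEy P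
    · intro Q
      rw [Adm.red_one, Place.ord_one, sub_zero]
      exact hr.2 y hy hyk hne E hEy Q
  | zero =>
    refine ⟨1, 1, Adm.one, Adm.one, ?_, ?_, ?_, ?_⟩
    · rw [Adm.red_one]; exact one_ne_zero
    · rw [Adm.red_one]; exact one_ne_zero
    · intro P; simp
    · intro Q; simp
  | add E E' _ _ hE hE' =>
    obtain ⟨a, b, ha, hb, ha0, hb0, h1, h2⟩ := hE
    obtain ⟨a', b', ha', hb', ha0', hb0', h1', h2'⟩ := hE'
    refine ⟨a * a', b * b', ha.mul ha', hb.mul hb', ?_, ?_, ?_, ?_⟩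
    · rw [Adm.red_mul ha ha']; exact mul_ne_zero ha0 ha0'
    · rw [Adm.red_mul hb hb']; exact mul_ne_zero hb0 hb0'
    · intro P
      rw [Finsupp.add_apply, h1 P, h1' P, Adm.elt_mul ha ha', Adm.elt_mul hb hb',
        Place.ord_mul _ (ha.elt_ne_zero ha0) (ha'.elt_ne_zero ha0'),
        Place.ord_mul _ (hb.elt_ne_zero hb0) (hb'.elt_ne_zero hb0')]
      ring
    · intro Q
      rw [Finsupp.mapDomain_add, Finsupp.add_apply, h2 Q, h2' Q, Adm.red_mul ha ha',
        Adm.red_mul hb hb', Place.ord_mul _ ha0 ha0', Place.ord_mul _ hb0 hb0']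
      ring
  | neg E _ hE =>
    obtain ⟨a, b, ha, hb, ha0, hb0, h1, h2⟩ := hE
    refine ⟨b, a, hb, ha, hb0, ha0, ?_, ?_⟩
    · intro P
      rw [Finsupp.neg_apply, h1 P]; ring
    · intro Q
      rw [← Finsupp.mapDomain.addMonoidHom_apply, map_neg, Finsupp.mapDomain.addMonoidHom_apply,
        Finsupp.neg_apply, h2 Q]
      ring

end

set_option maxHeartbeats 1600000 in
/-- **S18-N**: from `m z = 0` and `red z = 0`: `z = [E]` with `m E = div (a/b)`,
`a, b ∈ A((q)) ∩ F_N` with the same nonzero reduction. -/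
theorem exists_normalised (N : ℕ) [NeZero N] (A : ValuationSubring (AlgebraicClosure ℚ))
    [RRBase (AlgebraicClosure ℚ) (↥(modularFunctionFieldBar N))]
    [RRBase (IsLocalRing.ResidueField A)
      (↥(modularFunctionFieldFullC (IsLocalRing.ResidueField A) N))]
    [IsAlgClosed (IsLocalRing.ResidueField A)]
    (h : ReductionInputsModL A N) (m : ℕ) (hm : 0 < m) (z : JZero N)
    (hmz : m • z = 0) (hz : reductionModL A N z = 0) :
    ∃ (E : Divisor.degZero (K := AlgebraicClosure ℚ) (F := ↥(modularFunctionFieldBar N)))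
      (a b : LaurentSeries A)
      (ha : coeffMap A.subtype a ∈ modularFunctionFieldBar N)
      (hb : coeffMap A.subtype b ∈ modularFunctionFieldBar N),
      Pic0.mk E = z ∧
      coeffMap (IsLocalRing.residue A) a = coeffMap (IsLocalRing.residue A) b ∧
      coeffMap (IsLocalRing.residue A) b ≠ 0 ∧
      ∀ P : Place (AlgebraicClosure ℚ) (↥(modularFunctionFieldBar N)),
        (m • (E : Divisor (AlgebraicClosure ℚ) (↥(modularFunctionFieldBar N)))) P
          = P.ord (⟨coeffMap A.subtype a, ha⟩ : ↥(modularFunctionFieldBar N))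
            - P.ord (⟨coeffMap A.subtype b, hb⟩ : ↥(modularFunctionFieldBar N)) := by
  obtain ⟨D, rfl⟩ := Pic0.mk_surjective z
  -- `m D` is principal
  have hmD : (m • (D : Divisor (AlgebraicClosure ℚ) (↥(modularFunctionFieldBar N)))) ∈
      Divisor.principal (K := AlgebraicClosure ℚ) (F := ↥(modularFunctionFieldBar N)) := by
    have h1 : Pic0.mk (m • D) = 0 := by rw [← hmz]; rfl
    exact mem_principal_of_mk_eq_zero (m • D) h1
  obtain ⟨a₁, b₁, ha₁, hb₁, ha₁0, hb₁0, hP, hQ⟩ := exists_adm_of_principal h _ hmD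
  -- the reduction of `D` is principal
  have hzD := hz
  rw [reductionModL_mk h D] at hzD
  have hprin : Finsupp.mapDomain (placeReductionModL h)
      (D : Divisor (AlgebraicClosure ℚ) (↥(modularFunctionFieldBar N))) ∈
      Divisor.principal (K := IsLocalRing.ResidueField A)
        (F := ↥(modularFunctionFieldFullC (IsLocalRing.ResidueField A) N)) :=
    mem_principal_of_mk_eq_zero _ hzD
  obtain ⟨g, hg0, hg⟩ := hprin
  -- `ā₁ / (b̄₁ ḡ^m)` is a constant
  have hden : hb₁.red * g ^ m ≠ 0 := mul_ne_zero hb₁0 (pow_ne_zero _ hg0)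
  have hw : ∀ Q : Place (IsLocalRing.ResidueField A)
      (↥(modularFunctionFieldFullC (IsLocalRing.ResidueField A) N)),
      Q.ord (ha₁.red * (hb₁.red * g ^ m)⁻¹) = 0 := by
    intro Q
    have e1 := hQ Q
    rw [Finsupp.mapDomain_smul, Finsupp.smul_apply, hg Q] at e1
    rw [Place.ord_mul _ ha₁0 (inv_ne_zero hden), Place.ord_inv,
      Place.ord_mul _ hb₁0 (pow_ne_zero _ hg0), ord_pow_nat]
    rw [nsmul_eq_mul] at e1
    linarith
  obtain ⟨c, hc⟩ := RRBase.const_of_forall_ord_nonneg (K := IsLocalRing.ResidueField A)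
    (ha₁.red * (hb₁.red * g ^ m)⁻¹) (fun Q => (hw Q).ge)
  obtain ⟨d, hd⟩ := IsAlgClosed.exists_pow_nat_eq c hm
  have hg₁ : ha₁.red = hb₁.red * (algebraMap (IsLocalRing.ResidueField A)
      (↥(modularFunctionFieldFullC (IsLocalRing.ResidueField A) N)) d * g) ^ m := by
    have e2 : ha₁.red = (ha₁.red * (hb₁.red * g ^ m)⁻¹) * (hb₁.red * g ^ m) := by
      rw [mul_assoc, inv_mul_cancel₀ hden, mul_one]
    rw [e2, ← hc, ← hd, map_pow]
    ring
  have hd0 : algebraMap (IsLocalRing.ResidueField A)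
      (↥(modularFunctionFieldFullC (IsLocalRing.ResidueField A) N)) d * g ≠ 0 := by
    intro h0
    apply ha₁0
    rw [hg₁, h0, zero_pow hm.ne', mul_zero]
  -- lift `ḡ₁`
  obtain ⟨a₂, b₂, ha₂, hb₂, hb₂0, hab₂⟩ := exists_lift_adm
    ((algebraMap (IsLocalRing.ResidueField A)
      (↥(modularFunctionFieldFullC (IsLocalRing.ResidueField A) N)) d * g :
        ↥(modularFunctionFieldFullC (IsLocalRing.ResidueField A) N)) :
      LaurentSeries (IsLocalRing.ResidueField A))
    (algebraMap (IsLocalRing.ResidueField A)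
      (↥(modularFunctionFieldFullC (IsLocalRing.ResidueField A) N)) d * g).2
  have hb₂0' : hb₂.red ≠ 0 := fun h0 => hb₂0 (congrArg Subtype.val h0)
  have hg₁' : (algebraMap (IsLocalRing.ResidueField A)
      (↥(modularFunctionFieldFullC (IsLocalRing.ResidueField A) N)) d * g) * hb₂.red = ha₂.red :=
    Subtype.ext hab₂
  have ha₂0 : ha₂.red ≠ 0 := by rw [← hg₁']; exact mul_ne_zero hd0 hb₂0'
  have hu0 : ha₂.elt * hb₂.elt⁻¹ ≠ 0 :=
    mul_ne_zero (ha₂.elt_ne_zero ha₂0) (inv_ne_zero (hb₂.elt_ne_zero hb₂0'))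
  refine ⟨D - ⟨divOf (K := AlgebraicClosure ℚ) (ha₂.elt * hb₂.elt⁻¹), degree_divOf _⟩,
    a₁ * b₂ ^ m, b₁ * a₂ ^ m, (ha₁.mul (hb₂.pow m)).1, (hb₁.mul (ha₂.pow m)).1, ?_, ?_, ?_, ?_⟩
  · exact mk_sub_eq_of_mem_principal D _ ⟨ha₂.elt * hb₂.elt⁻¹, hu0, fun v => divOf_apply hu0 v⟩
  · have e3 : (ha₁.mul (hb₂.pow m)).red = (hb₁.mul (ha₂.pow m)).red := by
      rw [Adm.red_mul ha₁ (hb₂.pow m), Adm.red_mul hb₁ (ha₂.pow m), Adm.red_pow hb₂ m,
        Adm.red_pow ha₂ m, ← hg₁', hg₁]
      ring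
    exact congrArg Subtype.val e3
  · have e4 : (hb₁.mul (ha₂.pow m)).red ≠ 0 := by
      rw [Adm.red_mul hb₁ (ha₂.pow m), Adm.red_pow ha₂ m]
      exact mul_ne_zero hb₁0 (pow_ne_zero _ ha₂0)
    exact fun h0 => e4 (Subtype.ext h0)
  · intro P
    have e5 : (⟨coeffMap A.subtype (a₁ * b₂ ^ m), (ha₁.mul (hb₂.pow m)).1⟩ :
        ↥(modularFunctionFieldBar N)) = ha₁.elt * hb₂.elt ^ m := by
      rw [← Adm.elt_pow hb₂ m, ← Adm.elt_mul ha₁ (hb₂.pow m)]; rfl
    have e6 : (⟨coeffMap A.subtype (b₁ * a₂ ^ m), (hb₁.mul (ha₂.pow m)).1⟩ :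
        ↥(modularFunctionFieldBar N)) = hb₁.elt * ha₂.elt ^ m := by
      rw [← Adm.elt_pow ha₂ m, ← Adm.elt_mul hb₁ (ha₂.pow m)]; rfl
    rw [e5, e6, Place.ord_mul _ (ha₁.elt_ne_zero ha₁0) (pow_ne_zero _ (hb₂.elt_ne_zero hb₂0')),
      Place.ord_mul _ (hb₁.elt_ne_zero hb₁0) (pow_ne_zero _ (ha₂.elt_ne_zero ha₂0)),
      ord_pow_nat, ord_pow_nat]
    have e7 := hP P
    rw [Finsupp.smul_apply, nsmul_eq_mul] at e7
    rw [AddSubgroup.coe_sub, Finsupp.smul_apply, Finsupp.sub_apply, nsmul_eq_mul, mul_sub, e7]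
    show _ - (m : ℤ) * (divOf (K := AlgebraicClosure ℚ) (ha₂.elt * hb₂.elt⁻¹)) P = _
    rw [divOf_apply hu0, Place.ord_mul _ (ha₂.elt_ne_zero ha₂0)
      (inv_ne_zero (hb₂.elt_ne_zero hb₂0')), Place.ord_inv]
    ring

end Fermat.Agent.S18lib

end
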